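import Fermat.Agent.LValueDistribution.LimitLaw
import Fermat.Agent.Root.SummaryPrimeNumberTheorem
import Mathlib.MeasureTheory.Measure.IntegralCharFun

/-!
# The limit law has no atoms

Its characteristic function tends to zero at infinity, as there are many primes in `(|t|, 2 |t|]`.
-/

set_option autoImplicit false

noncomputable section

open Finset Filter MeasureTheory Complex
open scoped Topology
open FA.ClassNumberExtremes (oddPrimesUp mem_oddPrimesUp)

namespace FA.LValueDistribution

theorem norm_phase_add (a b : ℝ) : ‖phase a + phase b‖ = 2 * |Real.cos ((a - b) / 2)| := by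
  have e : phase a + phase b =
      phase ((a + b) / 2) * ((2 * Real.cos ((a - b) / 2) : ℝ) : ℂ) := by
    simp only [phase]
    push_cast
    rw [Complex.two_cos, mul_add, ← Complex.exp_add, ← Complex.exp_add]
    congr 1 <;> congr 1 <;> ring
  rw [e, norm_mul, norm_phase, one_mul, Complex.norm_real, Real.norm_eq_abs, abs_mul, abs_two]

/-- The contraction at a prime of size `|t|`. -/
def contraction : ℝ := (1 + Real.cos (1 / 4)) / 2

theorem contraction_mem : 0 ≤ contraction ∧ contraction < 1 := by
  have h1 := Real.neg_one_le_cos (1 / 4)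
  have h2 : Real.cos (1 / 4) < 1 := (Real.cos_lt_cos_of_nonneg_of_le_pi le_rfl
    (by linarith [Real.two_le_pi]) (by norm_num : (0 : ℝ) < 1 / 4)).trans_eq Real.cos_zero
  unfold contraction
  constructor <;> linarith

theorem norm_primeMean_phase_le_one (t : ℝ) (p : ℕ) :
    ‖primeMean p (localPhase t p)‖ ≤ 1 := by
  have h0 : (0 : ℝ) ≤ p := Nat.cast_nonneg p
  have hp : (0 : ℝ) < (p : ℝ) + 1 := by positivity
  unfold primeMean localPhase
  refine (norm_add_le _ _).trans ?_
  rw [norm_mul, norm_mul, Complex.norm_real, Complex.norm_real, norm_phase,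
    Real.norm_of_nonneg (by positivity), Real.norm_of_nonneg (by positivity)]
  refine (add_le_add le_rfl (mul_le_mul_of_nonneg_left
    (norm_add_le _ _) (by positivity))).trans (le_of_eq ?_)
  rw [norm_phase, norm_phase]
  field_simp
  ring

theorem norm_primeMean_phase_le {t : ℝ} {p : ℕ} (hp : 2 ≤ p) (h1 : |t| < p)
    (h2 : (p : ℝ) ≤ 2 * |t|) : ‖primeMean p (localPhase t p)‖ ≤ contraction := by
  have hp2 : (2 : ℝ) ≤ p := by exact_mod_cast hp
  have hp0 : (0 : ℝ) < (p : ℝ) + 1 := by positivity
  set u := (p : ℝ)⁻¹ with hu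
  have hu0 : 0 < u := by positivity
  have hu1 : u ≤ 1 / 2 := by
    rw [hu, one_div]; exact inv_anti₀ two_pos hp2
  set s := Real.log (1 + u) - Real.log (1 - u) with hs
  have hslo : u ≤ s := by
    have := Real.log_le_sub_one_of_pos (show 0 < 1 - u by linarith)
    have := Real.log_nonneg (show 1 ≤ 1 + u by linarith)
    linarith
  have hshi : s ≤ 3 * u := by
    have h3 := Real.log_le_sub_one_of_pos (show 0 < 1 + u by linarith)
    have h4 := Real.one_sub_inv_le_log_of_pos (show 0 < 1 - u by linarith)
    have h5 : (1 - u)⁻¹ ≤ 1 + 2 * u := by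
      rw [inv_eq_one_div, div_le_iff₀ (by linarith)]; nlinarith
    linarith
  have hcos : |Real.cos (|t| * s / 2)| ≤ Real.cos (1 / 4) := by
    have hlo : 1 / 4 ≤ |t| * s / 2 := by
      have : (1 : ℝ) / 2 ≤ |t| * u := by
        rw [hu, ← div_eq_mul_inv, le_div_iff₀ (by linarith)]; linarith
      nlinarith [abs_nonneg t]
    have hhi : |t| * s / 2 ≤ 3 / 2 := by
      have : |t| * u ≤ 1 := by
        rw [hu, ← div_eq_mul_inv, div_le_one (by linarith)]; linarith
      nlinarith [abs_nonneg t]
    have hpi : (3 : ℝ) < Real.pi := Real.pi_gt_three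
    rw [abs_of_nonneg (Real.cos_nonneg_of_mem_Icc ⟨by linarith, by linarith⟩)]
    exact Real.cos_le_cos_of_nonneg_of_le_pi (by norm_num) (by linarith) hlo
  have he : ‖localPhase t p 1 + localPhase t p (-1)‖ ≤ 2 * Real.cos (1 / 4) := by
    simp only [localPhase]
    rw [norm_phase_add, neg_div (p : ℝ) 1, one_div, ← hu, sub_neg_eq_add,
      show (-t * Real.log (1 - u) - -t * Real.log (1 + u)) / 2 = t * s / 2 by rw [hs]; ring,
      show |Real.cos (t * s / 2)| = |Real.cos (|t| * s / 2)| by
        rcases abs_choice t with e | e <;> rw [e]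
        rw [neg_mul, neg_div, Real.cos_neg]]
    linarith
  have h0 : localPhase t p 0 = 1 := by simp [localPhase, phase]
  unfold primeMean
  refine (norm_add_le _ _).trans ?_
  rw [norm_mul, norm_mul, h0, norm_one, Complex.norm_real, Complex.norm_real,
    Real.norm_of_nonneg (by positivity), Real.norm_of_nonneg (by positivity)]
  calc 1 / ((p : ℝ) + 1) * 1 + (p : ℝ) / (2 * ((p : ℝ) + 1)) *
        ‖localPhase t p 1 + localPhase t p (-1)‖
      ≤ 1 / ((p : ℝ) + 1) * 1 + (p : ℝ) / (2 * ((p : ℝ) + 1)) * (2 * Real.cos (1 / 4)) := by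
        gcongr
    _ ≤ contraction := by
        rw [contraction, mul_one, div_mul_eq_mul_div, div_add_div _ _ hp0.ne' (by positivity),
          div_le_div_iff₀ (by positivity) two_pos]
        have hc1 := Real.cos_le_one (1 / 4)
        nlinarith [mul_nonneg (mul_nonneg (sub_nonneg.mpr hc1)
          (show (0 : ℝ) ≤ (p : ℝ) - 1 by linarith)) hp0.le]

theorem tendsto_primes_between :
    Tendsto (fun k : ℕ => (((Finset.Ioc k (2 * k)).filter Nat.Prime).card : ℝ)) atTop atTop := by
  have hP := FA.PNT.Summary.prime_number_theorem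
  have hx : Tendsto (fun k : ℕ => (k : ℝ) / Real.log k) atTop atTop := by
    have h : Tendsto (fun k : ℕ => Real.log k / (k : ℝ)) atTop (𝓝[>] 0) := by
      refine tendsto_nhdsWithin_iff.mpr ⟨?_, ?_⟩
      · have := (Real.tendsto_pow_log_div_mul_add_atTop 1 0 1 one_ne_zero).comp
          (tendsto_natCast_atTop_atTop (R := ℝ))
        simpa [Function.comp_def] using this
      · filter_upwards [eventually_ge_atTop 2] with k hk
        have : (1 : ℝ) < k := by exact_mod_cast hk
        exact div_pos (Real.log_pos this) (by linarith)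
    simpa [inv_div, Function.comp_def] using tendsto_inv_nhdsGT_zero.comp h
  refine tendsto_atTop_mono' atTop ?_ (hx.const_mul_atTop (show (0 : ℝ) < 1 / 5 by norm_num))
  have h1 := (hP.comp (tendsto_natCast_atTop_atTop (R := ℝ))).eventually
    (Icc_mem_nhds (show (0.9 : ℝ) < 1 by norm_num) (show (1 : ℝ) < 1.1 by norm_num))
  have h2 := (hP.comp ((tendsto_natCast_atTop_atTop (R := ℝ)).const_mul_atTop two_pos)).eventually
    (Icc_mem_nhds (show (0.9 : ℝ) < 1 by norm_num) (show (1 : ℝ) < 1.1 by norm_num))
  filter_upwards [h1, h2, (Real.tendsto_log_atTop.comp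
    (tendsto_natCast_atTop_atTop (R := ℝ))).eventually_ge_atTop 5, eventually_ge_atTop 2]
    with k h1 h2 hlog hk
  simp only [Function.comp_apply, Nat.floor_natCast, Set.mem_Icc] at h1 h2 hlog
  rw [show ⌊2 * (k : ℝ)⌋₊ = 2 * k by
    rw [show 2 * (k : ℝ) = ((2 * k : ℕ) : ℝ) by push_cast; rfl, Nat.floor_natCast]] at h2
  have hk0 : (0 : ℝ) < k := by exact_mod_cast (by omega : 0 < k)
  have hcard : (Nat.primeCounting (2 * k) : ℝ) =
      Nat.primeCounting k + ((Finset.Ioc k (2 * k)).filter Nat.Prime).card := by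
    have e : ∀ n, Nat.primeCounting n = ((Finset.Iic n).filter Nat.Prime).card := fun n => by
      rw [Nat.primeCounting, Nat.primeCounting', Nat.count_eq_card_filter_range,
        Nat.range_succ_eq_Iic]
    rw [e, e, ← Nat.cast_add, ← Finset.card_union_of_disjoint
      (Finset.disjoint_left.mpr fun p hp hp' => by
        simp only [Finset.mem_filter, Finset.mem_Iic, Finset.mem_Ioc] at hp hp'; omega)]
    congr 2
    ext p
    simp only [Finset.mem_union, Finset.mem_filter, Finset.mem_Iic, Finset.mem_Ioc]
    constructor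
    · intro h
      rcases le_or_gt p k with h' | h'
      exacts [Or.inl ⟨h', h.2⟩, Or.inr ⟨⟨h', h.1⟩, h.2⟩]
    · rintro (⟨h1, h2⟩ | ⟨⟨-, h1⟩, h2⟩) <;> exact ⟨by omega, h2⟩
  have hl2 : Real.log (2 * k) ≤ 6 / 5 * Real.log k := by
    rw [Real.log_mul two_ne_zero hk0.ne']
    have := Real.log_le_sub_one_of_pos (show (0 : ℝ) < 2 by norm_num)
    linarith
  have hl2' : 0 < Real.log (2 * k) := Real.log_pos (by
    have : (2 : ℝ) ≤ k := by exact_mod_cast hk
    linarith)
  have h3 := h2.1
  rw [le_div_iff₀ (by positivity)] at h3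
  have h4 := h1.2
  rw [div_le_iff₀ hk0] at h4
  have h5 : 0.9 * (2 * (k : ℝ)) ≤ (Nat.primeCounting (2 * k) : ℝ) * (6 / 5 * Real.log k) :=
    h3.trans (mul_le_mul_of_nonneg_left hl2 (Nat.cast_nonneg _))
  have hlk : 0 < Real.log k := by linarith
  rw [← mul_div_assoc, div_le_iff₀ hlk]
  nlinarith [hcard]

/-- **Decay of the characteristic function.** -/
theorem norm_limChar_le {ε : ℝ} (hε : 0 < ε) : ∃ A : ℝ, ∀ t : ℝ, A < |t| → ‖limChar t‖ ≤ ε := by
  obtain ⟨j, hj⟩ := exists_pow_lt_of_lt_one hε contraction_mem.2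
  obtain ⟨k₀, hk₀⟩ := Filter.eventually_atTop.mp
    (tendsto_primes_between.eventually_ge_atTop ((j : ℝ) + 1))
  refine ⟨(k₀ : ℝ) + 2, fun t ht => ?_⟩
  set k := ⌊|t|⌋₊ with hk
  have hk1 : (k : ℝ) ≤ |t| := Nat.floor_le (abs_nonneg t)
  have hk2 : |t| < (k : ℝ) + 1 := Nat.lt_floor_add_one _
  have hkk : k₀ ≤ k ∧ 2 ≤ k := by
    constructor <;>
      exact Nat.le_floor (by push_cast; linarith [(Nat.cast_nonneg k₀ : (0 : ℝ) ≤ k₀)])
  refine le_of_tendsto (tendsto_limChar t).norm ?_
  filter_upwards [eventually_ge_atTop (2 * k)] with y hy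
  set Q := (Finset.Ioc k (2 * k)).filter Nat.Prime
  have hQ : Q ⊆ oddPrimesUp y := fun p hp => by
    simp only [Q, Finset.mem_filter, Finset.mem_Ioc] at hp
    exact mem_oddPrimesUp.mpr ⟨hp.2, by omega, by omega⟩
  have hjQ : j ≤ Q.card := by
    have := hk₀ k hkk.1
    exact_mod_cast (le_trans (by linarith) this : (j : ℝ) ≤ Q.card)
  rw [truncChar, norm_prod]
  calc ∏ p ∈ oddPrimesUp y, ‖primeMean p (localPhase t p)‖
      ≤ ∏ p ∈ Q, ‖primeMean p (localPhase t p)‖ :=
        Finset.prod_le_prod_of_subset_of_le_one hQ (fun p _ => norm_nonneg _)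
          fun p _ _ => norm_primeMean_phase_le_one t p
    _ ≤ ∏ _p ∈ Q, contraction := by
        refine Finset.prod_le_prod (fun p _ => norm_nonneg _) fun p hp => ?_
        simp only [Q, Finset.mem_filter, Finset.mem_Ioc] at hp
        refine norm_primeMean_phase_le hp.2.two_le ?_ ?_
        · exact hk2.trans_le (by exact_mod_cast (by omega : k + 1 ≤ p))
        · have : (p : ℝ) ≤ 2 * k := by exact_mod_cast hp.1.2
          linarith
    _ = contraction ^ Q.card := by rw [Finset.prod_const]
    _ ≤ ε := (pow_le_pow_of_le_one contraction_mem.1 contraction_mem.2.le hjQ).trans hj.le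

/-- **The limit law has no atoms.** -/
theorem logLaw_singleton (x : ℝ) : (logLaw : Measure ℝ) {x} = 0 := by
  set μ := (logLaw : Measure ℝ).map (fun u => u + -x) with hμ
  have : IsProbabilityMeasure μ := Measure.isProbabilityMeasure_map (by fun_prop)
  have hchar : ∀ t, ‖charFun μ t‖ = ‖limChar t‖ := fun t => by
    rw [hμ, charFun_map_add_const, norm_mul, charFun_logLaw,
      show ((inner ℝ (-x) t : ℝ) : ℂ) * I = ((inner ℝ (-x) t : ℝ) : ℂ) * I from rfl,
      Complex.norm_exp_ofReal_mul_I, mul_one]
  have hlim : Tendsto (fun r : ℕ => ∫ u, Real.sinc ((r : ℝ) * u) ∂μ) atTop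
      (𝓝 (∫ u, Set.indicator {(0 : ℝ)} (fun _ => (1 : ℝ)) u ∂μ)) := by
    refine tendsto_integral_of_dominated_convergence (fun _ => 1)
      (fun r =>
        (Real.continuous_sinc.comp (continuous_const.mul continuous_id)).aestronglyMeasurable)
      (integrable_const 1) (fun r => Eventually.of_forall fun u => Real.abs_sinc_le_one _)
      (Eventually.of_forall fun u => ?_)
    by_cases hu : u = 0
    · subst hu; simp
    · rw [Set.indicator_of_notMem (by simpa using hu)]
      refine squeeze_zero_norm' ?_ (tendsto_const_div_atTop_nhds_zero_nat (|u|⁻¹))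
      filter_upwards [eventually_gt_atTop 0] with r hr
      have hr' : (0 : ℝ) < r := by exact_mod_cast hr
      rw [Real.sinc_of_ne_zero (mul_ne_zero hr'.ne' hu), Real.norm_eq_abs, abs_div, abs_mul,
        Nat.abs_cast]
      refine (div_le_div_of_nonneg_right (Real.abs_sin_le_one _) (by positivity)).trans_eq ?_
      rw [one_div, mul_inv, div_eq_mul_inv, mul_comm]
  have hzero : Tendsto (fun r : ℕ => ∫ u, Real.sinc ((r : ℝ) * u) ∂μ) atTop (𝓝 0) := by
    rw [Metric.tendsto_nhds]
    intro ε hε
    obtain ⟨A, hA⟩ := norm_limChar_le (show 0 < ε / 4 by positivity)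
    filter_upwards [eventually_ge_atTop 1, tendsto_natCast_atTop_atTop.eventually_ge_atTop
      (max (max A 0 * 4 / ε) (max A 0))] with r hr hr2
    have hr' : (0 : ℝ) < r := by exact_mod_cast hr
    have h := congrArg norm (integral_charFun_Icc (μ := μ) hr')
    rw [norm_mul, norm_mul, Complex.norm_ofNat, Complex.norm_real, Complex.norm_real,
      Real.norm_of_nonneg hr'.le] at h
    rw [dist_zero_right]
    set A' := max A 0
    have hA' : 0 ≤ A' := le_max_right _ _
    have hrA : A' ≤ r := (le_max_right _ _).trans hr2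
    have hcont : Continuous fun t => ‖charFun μ t‖ := continuous_charFun.norm
    have hint : ∀ a b : ℝ, IntervalIntegrable (fun t => ‖charFun μ t‖) volume a b :=
      fun a b => hcont.intervalIntegrable a b
    have hsmall : ∀ a b : ℝ, a ≤ b → (∀ t ∈ Set.Ioo a b, A < |t|) →
        ∫ t in a..b, ‖charFun μ t‖ ≤ ε / 4 * (b - a) := fun a b hab h' => by
      have := intervalIntegral.integral_mono_on_of_le_Ioo hab (hint a b)
        (intervalIntegrable_const (c := ε / 4)) fun t ht => by
          rw [hchar]; exact hA t (h' t ht)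
      rw [intervalIntegral.integral_const, smul_eq_mul, mul_comm] at this
      exact this
    have hmid : ∫ t in (-A')..A', ‖charFun μ t‖ ≤ 2 * A' := by
      have := intervalIntegral.integral_mono_on (by linarith : -A' ≤ A') (hint _ _)
        (intervalIntegrable_const (c := (1 : ℝ))) fun t _ => norm_charFun_le_one t
      rw [intervalIntegral.integral_const, smul_eq_mul, mul_one] at this
      linarith
    have hsplit : ∫ t in (-(r : ℝ))..r, ‖charFun μ t‖ ≤ 2 * A' + ε / 2 * r := by
      rw [← intervalIntegral.integral_add_adjacent_intervals (hint _ (-A')) (hint _ _),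
        ← intervalIntegral.integral_add_adjacent_intervals (hint (-A') A') (hint A' _)]
      have h1 := hsmall (-(r : ℝ)) (-A') (by linarith) fun t ht => by
        have := le_max_left A 0
        have := neg_le_abs t
        linarith [ht.2]
      have h2 := hsmall A' r hrA fun t ht => by
        have := le_max_left A 0
        have := le_abs_self t
        linarith [ht.1]
      nlinarith
    have hb := (intervalIntegral.norm_integral_le_integral_norm
      (f := fun t => charFun μ t) (μ := volume) (by linarith : -(r : ℝ) ≤ r)).trans hsplit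
    rw [h] at hb
    have hA4 : A' * 4 / ε ≤ r := (le_max_left _ _).trans hr2
    rw [div_le_iff₀ hε] at hA4
    nlinarith
  have h0 := tendsto_nhds_unique hlim hzero
  rw [integral_indicator (measurableSet_singleton 0), setIntegral_const, smul_eq_mul, mul_one,
    measureReal_def, ENNReal.toReal_eq_zero_iff, hμ,
    Measure.map_apply (by fun_prop) (measurableSet_singleton 0)] at h0
  have he : (fun u : ℝ => u + -x) ⁻¹' {0} = {x} := by
    ext u; simp [← sub_eq_add_neg, sub_eq_zero]
  rw [he] at h0
  exact h0.resolve_right (measure_ne_top _ _)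

end FA.LValueDistribution
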