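import Fermat.Agent.ClassNumberExtremes.Basic
import Mathlib.Analysis.PSeries
import Mathlib.Analysis.Normed.Group.Tannery

/-!
# Squarefree numbers in a residue class modulo four

The squarefree `n ≡ r (mod 4)` prime to the odd `k` have the density `sfDensity k`, the same for
both odd `r`, and adjoining a prime `p` to `k` multiplies it by `p / (p + 1)`.
-/

set_option autoImplicit false

noncomputable section

open Finset Filter
open scoped Topology

namespace FA.LValueDistribution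

theorem sum_moebius_sq_dvd {n N : ℕ} (hn : n ≠ 0) (hnN : n ≤ N) :
    ∑ d ∈ Icc 1 N, (if d ^ 2 ∣ n then (ArithmeticFunction.moebius d : ℝ) else 0) =
      if Squarefree n then 1 else 0 := by
  obtain ⟨s, b, hbs, hs⟩ := Nat.sq_mul_squarefree n
  have hb0 : b ≠ 0 := fun h => hn (by rw [← hbs, h]; simp)
  have hset : (Icc 1 N).filter (fun d => d ^ 2 ∣ n) = b.divisors := by
    ext d
    simp only [mem_filter, mem_Icc, Nat.mem_divisors]
    constructor
    · rintro ⟨⟨hd, -⟩, h⟩
      refine ⟨(Nat.factorization_le_iff_dvd (by omega) hb0).mp fun p => ?_, hb0⟩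
      have h1 := (Nat.factorization_le_iff_dvd (pow_ne_zero 2 (by omega : d ≠ 0)) hn).mpr h p
      rw [← hbs, Nat.factorization_mul (pow_ne_zero 2 hb0) hs.ne_zero, Nat.factorization_pow,
        Nat.factorization_pow] at h1
      simp only [Finsupp.coe_smul, Finsupp.coe_add, Pi.smul_apply, Pi.add_apply, smul_eq_mul] at h1
      have h2 := Squarefree.natFactorization_le_one p hs
      omega
    · rintro ⟨hd, -⟩
      have h2 : d ^ 2 ∣ n := (pow_dvd_pow_of_dvd hd 2).trans (hbs ▸ dvd_mul_right (b ^ 2) s)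
      refine ⟨⟨Nat.pos_of_ne_zero (ne_zero_of_dvd_ne_zero hb0 hd), ?_⟩, h2⟩
      exact (Nat.le_self_pow two_ne_zero d).trans
        ((Nat.le_of_dvd (Nat.pos_of_ne_zero hn) h2).trans hnN)
  rw [← Finset.sum_filter, hset, ← Int.cast_sum, ← ArithmeticFunction.coe_mul_zeta_apply,
    ArithmeticFunction.moebius_mul_coe_zeta, ArithmeticFunction.one_apply]
  have hiff : Squarefree n ↔ b = 1 := by
    refine ⟨fun h => Nat.isUnit_iff.mp (h b ?_), fun h => ?_⟩
    · rw [← sq, ← hbs]; exact dvd_mul_right _ _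
    · rwa [← hbs, h, one_pow, one_mul]
  by_cases h : Squarefree n
  · rw [if_pos h, if_pos (hiff.mp h)]; simp
  · rw [if_neg h, if_neg (mt hiff.mpr h)]; simp

theorem sum_coprime_indicator {n b : ℕ} (hb : b ≠ 0) :
    ∑ e ∈ b.divisors, (if e ∣ n then (ArithmeticFunction.moebius e : ℝ) else 0) =
      if n.Coprime b then 1 else 0 := by
  have hdiv : b.divisors.filter (· ∣ n) = (Nat.gcd n b).divisors := by
    ext e
    simp only [Finset.mem_filter, Nat.mem_divisors, Nat.dvd_gcd_iff]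
    exact ⟨fun ⟨⟨a, _⟩, c⟩ => ⟨⟨c, a⟩, Nat.gcd_ne_zero_right hb⟩,
      fun ⟨⟨c, a⟩, _⟩ => ⟨⟨a, hb⟩, c⟩⟩
  rw [← Finset.sum_filter, hdiv, ← Int.cast_sum, ← ArithmeticFunction.coe_mul_zeta_apply,
    ArithmeticFunction.moebius_mul_coe_zeta, ArithmeticFunction.one_apply]
  by_cases hc : n.Coprime b
  · rw [if_pos hc, if_pos hc]; simp
  · rw [if_neg hc, if_neg hc]; simp

/-- The multiples of `t` in the class `r` modulo four up to `N`. -/
def classMultiples (r t N : ℕ) : Finset ℕ := (Icc 1 N).filter fun n => n % 4 = r ∧ t ∣ n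

theorem sum_classMultiples {t r : ℕ} (ht : Odd t) (hr : r = 1 ∨ r = 3) (N : ℕ) {β : Type*}
    [AddCommMonoid β] (f : ℕ → β) :
    ∑ n ∈ classMultiples r t N, f n =
      ∑ j ∈ range ((N / t + 4 - t * r % 4) / 4), f (t * (t * r % 4 + 4 * j)) := by
  have ht0 : 0 < t := ht.pos
  have hr' : t * r % 4 = 1 ∨ t * r % 4 = 3 :=
    Nat.odd_mod_four_iff.mp (Nat.odd_iff.mp (ht.mul (by rcases hr with rfl | rfl <;> decide)))
  have hsq : t * t % 4 = 1 := by
    obtain ⟨i, rfl⟩ := ht
    rw [show (2 * i + 1) * (2 * i + 1) = 1 + 4 * (i * i + i) by ring, Nat.add_mul_mod_self_left]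
  have hback : ∀ k : ℕ, k % 4 = t * r % 4 → (t * k) % 4 = r := fun k hk => by
    rw [Nat.mul_mod, hk, ← Nat.mul_mod, ← mul_assoc, Nat.mul_mod, hsq]
    rcases hr with rfl | rfl <;> rfl
  have hfwd : ∀ k : ℕ, (t * k) % 4 = r → k % 4 = t * r % 4 := fun k hk => by
    rw [← hk, Nat.mul_mod t (t * k % 4), Nat.mod_mod, ← Nat.mul_mod, ← mul_assoc,
      Nat.mul_mod (t * t), hsq, one_mul, Nat.mod_mod]
  symm
  refine Finset.sum_nbij' (fun j => t * (t * r % 4 + 4 * j)) (fun n => (n / t) / 4)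
    ?_ ?_ ?_ ?_ (fun _ _ => rfl)
  · intro j hj
    rw [mem_range] at hj
    rw [classMultiples, mem_filter, mem_Icc]
    refine ⟨⟨Nat.mul_pos ht0 (by omega), ?_⟩, hback _ (by omega), dvd_mul_right _ _⟩
    have h1 : t * r % 4 + 4 * j ≤ N / t := by
      generalize N / t = q at hj ⊢
      omega
    exact (Nat.mul_le_mul_left t h1).trans (Nat.mul_div_le N t)
  · intro n hn
    rw [classMultiples, mem_filter, mem_Icc] at hn
    obtain ⟨⟨-, h2⟩, h3, ⟨k, rfl⟩⟩ := hn
    rw [Nat.mul_div_cancel_left _ ht0, mem_range]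
    have := hfwd k h3
    have : k ≤ N / t := (Nat.le_div_iff_mul_le ht0).mpr (by rwa [mul_comm])
    omega
  · intro j _
    rw [Nat.mul_div_cancel_left _ ht0]
    omega
  · intro n hn
    rw [classMultiples, mem_filter] at hn
    obtain ⟨-, h3, ⟨k, rfl⟩⟩ := hn
    have := hfwd k h3
    rw [Nat.mul_div_cancel_left _ ht0]
    congr 1
    omega

theorem card_classMultiples {t r : ℕ} (ht : Odd t) (hr : r = 1 ∨ r = 3) (N : ℕ) :
    |((classMultiples r t N).card : ℝ) - (N : ℝ) / (4 * t)| ≤ 2 := by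
  have h := sum_classMultiples ht hr N (fun _ => (1 : ℕ))
  simp only [Finset.sum_const, smul_eq_mul, mul_one, card_range] at h
  rw [h]
  set q := N / t
  have ht' : (0 : ℝ) < t := by exact_mod_cast ht.pos
  have h3 : (q : ℝ) ≤ N / t := Nat.cast_div_le
  have h4 : (N : ℝ) / t ≤ q + 1 := by
    rw [div_le_iff₀ ht']
    exact_mod_cast (Nat.lt_mul_div_succ N ht.pos).le.trans (le_of_eq (mul_comm t (q + 1)))
  clear_value q
  set J := (q + 4 - t * r % 4) / 4
  have hlt : t * r % 4 < 4 := Nat.mod_lt _ (by norm_num)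
  have h1 : (4 : ℝ) * J ≤ q + 4 := by exact_mod_cast (by omega : 4 * J ≤ q + 4)
  have h2 : (q : ℝ) ≤ 4 * J + 3 := by exact_mod_cast (by omega : q ≤ 4 * J + 3)
  rw [abs_le, show (N : ℝ) / (4 * t) = N / t / 4 by ring]
  constructor <;> linarith

theorem classMultiples_even {r t : ℕ} (hr : r = 1 ∨ r = 3) (ht : ¬ Odd t) (N : ℕ) :
    classMultiples r t N = ∅ := by
  refine Finset.filter_eq_empty_iff.mpr fun n _ ⟨h1, h2⟩ => ?_
  rw [Nat.not_odd_iff_even, even_iff_two_dvd] at ht
  have := ht.trans h2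
  omega

/-- The squarefree `n ≤ N`, `n ≡ r (mod 4)`, prime to `k`. -/
def sfClass (r k N : ℕ) : Finset ℕ :=
  (Icc 1 N).filter fun n => Squarefree n ∧ n % 4 = r ∧ n.Coprime k

theorem mem_sfClass {r k N n : ℕ} :
    n ∈ sfClass r k N ↔ n ∈ Icc 1 N ∧ Squarefree n ∧ n % 4 = r ∧ n.Coprime k := mem_filter

/-- The term of `d` in the sieve. -/
def sieveTerm (r k d N : ℕ) : ℝ :=
  (ArithmeticFunction.moebius d : ℝ) * ∑ e ∈ k.divisors,
    (ArithmeticFunction.moebius e : ℝ) * (classMultiples r (Nat.lcm e (d ^ 2)) N).card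

theorem sieveTerm_eq (r k d N : ℕ) (hk : k ≠ 0) :
    sieveTerm r k d N = (ArithmeticFunction.moebius d : ℝ) *
      ((classMultiples r (d ^ 2) N).filter (·.Coprime k)).card := by
  rw [sieveTerm]
  congr 1
  rw [Finset.card_filter, Nat.cast_sum]
  push_cast
  simp only [← sum_coprime_indicator (b := k) hk]
  rw [Finset.sum_comm]
  refine Finset.sum_congr rfl fun e _ => ?_
  rw [← Finset.sum_filter, Finset.sum_const, nsmul_eq_mul, mul_comm]
  congr 2
  congr 1
  ext n
  simp only [classMultiples, mem_filter, Nat.lcm_dvd_iff]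
  tauto

theorem card_sfClass (r : ℕ) {k : ℕ} (hk : k ≠ 0) (N : ℕ) :
    ((sfClass r k N).card : ℝ) = ∑ d ∈ Icc 1 N, sieveTerm r k d N := by
  simp only [sieveTerm_eq _ _ _ _ hk, classMultiples, Finset.filter_filter]
  rw [sfClass, Finset.card_filter, Nat.cast_sum]
  simp only [Finset.card_filter, Nat.cast_sum, Finset.mul_sum]
  rw [Finset.sum_comm]
  refine Finset.sum_congr rfl fun n hn => ?_
  rw [mem_Icc] at hn
  have h := sum_moebius_sq_dvd (show n ≠ 0 by omega) hn.2
  by_cases hc : n % 4 = r ∧ n.Coprime k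
  · have e1 : (Squarefree n ∧ n % 4 = r ∧ n.Coprime k) ↔ Squarefree n := and_iff_left hc
    simp only [e1]
    rw [Nat.cast_ite, Nat.cast_one, Nat.cast_zero, ← h]
    refine Finset.sum_congr rfl fun d _ => ?_
    by_cases hd : d ^ 2 ∣ n <;> simp [hd, hc]
  · rw [if_neg fun h => hc h.2, Nat.cast_zero]
    exact (Finset.sum_eq_zero fun d _ => by rw [if_neg fun h => hc ⟨h.1.1, h.2⟩]; simp).symm

theorem abs_sieveTerm_le (r : ℕ) {k : ℕ} (hk : k ≠ 0) (d N : ℕ) :
    |sieveTerm r k d N| ≤ (N : ℝ) / (d : ℝ) ^ 2 := by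
  rw [sieveTerm_eq _ _ _ _ hk, abs_mul, Nat.abs_cast]
  rcases eq_or_ne d 0 with rfl | hd
  · simp
  calc _ ≤ 1 * ((N / d ^ 2 : ℕ) : ℝ) := by
        refine mul_le_mul (by exact_mod_cast ArithmeticFunction.abs_moebius_le_one (n := d))
          ?_ (Nat.cast_nonneg _) zero_le_one
        refine Nat.cast_le.mpr ((Finset.card_filter_le _ _).trans ?_)
        rw [← Nat.Ioc_filter_dvd_card_eq_div N (d ^ 2)]
        refine Finset.card_le_card fun n hn => ?_
        simp only [classMultiples, mem_filter, mem_Icc] at hn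
        exact mem_filter.mpr ⟨mem_Ioc.mpr ⟨hn.1.1, hn.1.2⟩, hn.2.2⟩
    _ ≤ _ := by
        rw [one_mul]
        exact Nat.cast_div_le.trans (le_of_eq (by push_cast; rfl))

/-- The limit of `sieveTerm r k d N / N`. -/
def sieveWeight (k d : ℕ) : ℝ :=
  if Odd d then (ArithmeticFunction.moebius d : ℝ) * ∑ e ∈ k.divisors,
    (ArithmeticFunction.moebius e : ℝ) / (4 * (Nat.lcm e (d ^ 2) : ℕ)) else 0

/-- The density of the squarefree numbers of an odd class modulo four prime to `k`. -/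
def sfDensity (k : ℕ) : ℝ := ∑' d, sieveWeight k d

theorem tendsto_of_abs_sub_le {f : ℕ → ℝ} {c B : ℝ} (h : ∀ N : ℕ, |f N - c * N| ≤ B) :
    Tendsto (fun N : ℕ => f N / N) atTop (𝓝 c) := by
  rw [tendsto_iff_norm_sub_tendsto_zero]
  refine squeeze_zero' (Eventually.of_forall fun _ => norm_nonneg _) ?_
    (tendsto_const_div_atTop_nhds_zero_nat B)
  filter_upwards [eventually_gt_atTop 0] with N hN
  have hN' : (0 : ℝ) < N := by exact_mod_cast hN
  rw [Real.norm_eq_abs, show f N / N - c = (f N - c * N) / N by field_simp, abs_div, Nat.abs_cast]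
  exact div_le_div_of_nonneg_right (h N) hN'.le

theorem tendsto_sieveTerm {r k : ℕ} (hr : r = 1 ∨ r = 3) (hk : Odd k) (d : ℕ) :
    Tendsto (fun N : ℕ => sieveTerm r k d N / N) atTop (𝓝 (sieveWeight k d)) := by
  by_cases hd : Odd d
  · rw [sieveWeight, if_pos hd]
    have : Tendsto (fun N : ℕ => (ArithmeticFunction.moebius d : ℝ) * ∑ e ∈ k.divisors,
        (ArithmeticFunction.moebius e : ℝ) *
          ((classMultiples r (Nat.lcm e (d ^ 2)) N).card / N)) atTop
        (𝓝 ((ArithmeticFunction.moebius d : ℝ) * ∑ e ∈ k.divisors,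
          (ArithmeticFunction.moebius e : ℝ) * (1 / (4 * (Nat.lcm e (d ^ 2) : ℕ))))) := by
      refine Tendsto.const_mul _ (tendsto_finsetSum _ fun e he => Tendsto.const_mul _ ?_)
      have hl : Odd (Nat.lcm e (d ^ 2)) := by
        have := (hk.of_dvd_nat (Nat.dvd_of_mem_divisors he)).mul (hd.pow (n := 2))
        exact this.of_dvd_nat (Nat.lcm_dvd_mul _ _)
      refine tendsto_of_abs_sub_le (B := 2) fun N => ?_
      rw [one_div_mul_eq_div]
      exact card_classMultiples hl hr N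
    refine (this.congr fun N => ?_).trans (le_of_eq ?_)
    · rw [sieveTerm, mul_div_assoc, Finset.sum_div]
      simp only [mul_div_assoc]
    · simp only [mul_one_div]
  · rw [sieveWeight, if_neg hd]
    refine tendsto_const_nhds.congr fun N => ?_
    rw [sieveTerm, Finset.sum_eq_zero fun e _ => ?_]
    · simp
    · rw [classMultiples_even hr fun h => hd ((Nat.odd_pow_iff two_ne_zero).mp
        (h.of_dvd_nat (Nat.dvd_lcm_right _ _)))]
      simp

theorem tendsto_card_sfClass {r k : ℕ} (hr : r = 1 ∨ r = 3) (hk : Odd k) :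
    Tendsto (fun N : ℕ => ((sfClass r k N).card : ℝ) / N) atTop (𝓝 (sfDensity k)) := by
  have hk0 : k ≠ 0 := hk.pos.ne'
  have h := tendsto_tsum_of_dominated_convergence
    (f := fun N d => sieveTerm r k d N / N) (g := sieveWeight k)
    (bound := fun d : ℕ => ((d : ℝ) ^ 2)⁻¹) (Real.summable_nat_pow_inv.mpr one_lt_two)
    (tendsto_sieveTerm hr hk) (Eventually.of_forall fun N d => ?_)
  · refine h.congr fun N => ?_
    rw [card_sfClass r hk0, Finset.sum_div]
    refine tsum_eq_sum fun d hd => ?_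
    rw [mem_Icc] at hd
    rcases eq_or_ne d 0 with rfl | hd0
    · simp [sieveTerm]
    · rw [sieveTerm_eq _ _ _ _ hk0, show classMultiples r (d ^ 2) N = ∅ from
        Finset.filter_eq_empty_iff.mpr fun n hn ⟨_, h2⟩ => by
          rw [mem_Icc] at hn
          have := (Nat.le_self_pow two_ne_zero d).trans (Nat.le_of_dvd (by omega) h2)
          omega]
      simp
  · rw [Real.norm_eq_abs, abs_div, Nat.abs_cast]
    rcases eq_or_ne N 0 with rfl | hN
    · simp
    · rw [div_le_iff₀ (by exact_mod_cast Nat.pos_of_ne_zero hN)]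
      refine (abs_sieveTerm_le r hk0 d N).trans (le_of_eq ?_)
      rw [div_eq_inv_mul]

theorem sfDensity_one_pos : 0 < sfDensity 1 := by
  have hw : ∀ d : ℕ, |sieveWeight 1 d| ≤ 1 / 4 * ((d : ℝ) ^ 2)⁻¹ := fun d => by
    unfold sieveWeight
    split_ifs with hd
    · rw [Nat.divisors_one, Finset.sum_singleton, Nat.lcm_one_left, abs_mul]
      refine (mul_le_of_le_one_left (abs_nonneg _)
        (by exact_mod_cast ArithmeticFunction.abs_moebius_le_one (n := d))).trans (le_of_eq ?_)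
      simp only [ArithmeticFunction.moebius_apply_one, Int.cast_one, Nat.cast_pow]
      rw [abs_of_nonneg (by positivity)]
      field_simp
    · simp
  have hsum : Summable (fun d => sieveWeight 1 d) :=
    Summable.of_norm_bounded ((Real.summable_nat_pow_inv.mpr one_lt_two).mul_left (1 / 4)) hw
  refine lt_of_lt_of_le (by norm_num : (0 : ℝ) < 1 / 8)
    (ge_of_tendsto hsum.hasSum.tendsto_sum_nat ?_)
  filter_upwards [eventually_ge_atTop 3] with M hM
  rw [← Finset.sum_range_add_sum_Ico _ hM]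
  have h2 : |∑ d ∈ Ico 3 M, sieveWeight 1 d| ≤ 1 / 8 := by
    refine (Finset.abs_sum_le_sum_abs _ _).trans ((Finset.sum_le_sum fun d _ => hw d).trans ?_)
    rw [← Finset.mul_sum]
    have h3 : ∑ d ∈ Ico 3 M, ((d : ℝ) ^ 2)⁻¹ ≤ ∑ d ∈ Ioc 2 M, ((d : ℝ) ^ 2)⁻¹ :=
      Finset.sum_le_sum_of_subset_of_nonneg (fun d hd => by
        simp only [mem_Ico, mem_Ioc] at hd ⊢; omega) fun d _ _ => by positivity
    have h4 : ∑ d ∈ Ioc 2 M, ((d : ℝ) ^ 2)⁻¹ ≤ (2 : ℝ)⁻¹ := by
      refine (sum_Ioc_inv_sq_le_sub two_ne_zero (by omega : 2 ≤ M)).trans ?_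
      push_cast
      exact sub_le_self _ (by positivity)
    linarith
  have h1 : ∑ d ∈ range 3, sieveWeight 1 d = 1 / 4 := by
    rw [Finset.sum_range_succ, Finset.sum_range_succ, Finset.sum_range_one]
    simp [sieveWeight]
  rw [h1]
  linarith [(abs_le.mp h2).1]

theorem tendsto_div_of_tendsto {f : ℕ → ℝ} {c : ℝ} {p : ℕ} (hp : 0 < p)
    (h : Tendsto (fun N : ℕ => f N / N) atTop (𝓝 c)) :
    Tendsto (fun N : ℕ => f (N / p) / N) atTop (𝓝 (c / p)) := by
  have hp' : (0 : ℝ) < p := by exact_mod_cast hp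
  have h2 : Tendsto (fun N : ℕ => ((N / p : ℕ) : ℝ) / N) atTop (𝓝 ((p : ℝ)⁻¹)) :=
    tendsto_of_abs_sub_le (B := 1) fun N => by
      have h1 : ((N / p : ℕ) : ℝ) ≤ N / p := Nat.cast_div_le
      have h2 : (N : ℝ) / p ≤ ((N / p : ℕ) : ℝ) + 1 := by
        rw [div_le_iff₀ hp']
        exact_mod_cast (Nat.lt_mul_div_succ N hp).le.trans (le_of_eq (mul_comm p (N / p + 1)))
      rw [abs_le, inv_mul_eq_div]
      constructor <;> linarith
  rw [div_eq_mul_inv c]
  refine ((h.comp (Nat.tendsto_div_const_atTop hp.ne')).mul h2).congr' ?_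
  filter_upwards [eventually_ge_atTop p] with N hN
  have : ((N / p : ℕ) : ℝ) ≠ 0 := by exact_mod_cast (Nat.div_pos hN hp).ne'
  simp only [Function.comp]
  field_simp

theorem sfDensity_mul_prime {k p : ℕ} (hk : Odd k) (hp : p.Prime) (hp2 : p ≠ 2) (hpk : ¬ p ∣ k) :
    sfDensity (k * p) = sfDensity k * ((p : ℝ) / (p + 1)) := by
  have hpo := hp.odd_of_ne_two hp2
  have hr' : p % 4 = 1 ∨ p % 4 = 3 := Nat.odd_mod_four_iff.mp (Nat.odd_iff.mp hpo)
  have hsq : p * p % 4 = 1 := by
    rcases hr' with h | h <;> simp [Nat.mul_mod, h]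
  have hcount : ∀ N : ℕ, ((sfClass 1 k N).card : ℝ) =
      (sfClass 1 (k * p) N).card + (sfClass (p % 4) (k * p) (N / p)).card := by
    intro N
    rw [← Finset.card_filter_add_card_filter_not (fun n => ¬ p ∣ n) (s := sfClass 1 k N),
      Nat.cast_add]
    congr 2
    · congr 1
      ext n
      have hnp : n.Coprime p ↔ ¬ p ∣ n := Nat.coprime_comm.trans hp.coprime_iff_not_dvd
      simp only [mem_filter, mem_sfClass, Nat.coprime_mul_iff_right, hnp]
      tauto
    · refine Finset.card_nbij' (· / p) (p * ·) ?_ ?_ ?_ ?_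
      · intro n hn
        simp only [Finset.coe_filter, Set.mem_ofPred_eq, mem_sfClass, mem_Icc, not_not] at hn
        obtain ⟨⟨⟨h1, h2⟩, hs, h4, hc⟩, ⟨m, rfl⟩⟩ := hn
        simp only [Finset.mem_coe, mem_sfClass, mem_Icc, Nat.mul_div_cancel_left _ hp.pos,
          Nat.coprime_mul_iff_right]
        refine ⟨⟨Nat.pos_of_ne_zero fun h => by simp [h] at h1,
          (Nat.le_div_iff_mul_le hp.pos).mpr (by rwa [mul_comm])⟩,
          hs.squarefree_of_dvd (dvd_mul_left m p), ?_,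
          hc.coprime_dvd_left (dvd_mul_left m p), ?_⟩
        · have h5 : p * (p * m) % 4 = p % 4 := by rw [Nat.mul_mod, h4]; simp
          rwa [← mul_assoc, Nat.mul_mod, hsq, one_mul, Nat.mod_mod] at h5
        · refine Nat.Coprime.symm (hp.coprime_iff_not_dvd.mpr fun ⟨i, hi⟩ => hp.not_isUnit
            (hs p ⟨i, by rw [hi]; ring⟩))
      · intro m hm
        simp only [Finset.mem_coe, mem_sfClass, mem_Icc, Nat.coprime_mul_iff_right] at hm
        obtain ⟨⟨h1, h2⟩, hs, h4, hc, hcp⟩ := hm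
        simp only [Finset.coe_filter, Set.mem_ofPred_eq, mem_sfClass, mem_Icc, not_not]
        refine ⟨⟨⟨Nat.mul_pos hp.pos h1, (Nat.mul_le_mul_left p h2).trans (Nat.mul_div_le N p)⟩,
          (Nat.squarefree_mul hcp.symm).mpr ⟨hp.squarefree, hs⟩, ?_,
          Nat.Coprime.mul_left (hp.coprime_iff_not_dvd.mpr hpk) hc⟩, dvd_mul_right _ _⟩
        rw [Nat.mul_mod, h4, ← Nat.mul_mod, hsq]
      · intro n hn
        simp only [Finset.coe_filter, Set.mem_ofPred_eq, not_not] at hn
        exact Nat.mul_div_cancel' hn.2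
      · exact fun m _ => Nat.mul_div_cancel_left _ hp.pos
  have h := tendsto_nhds_unique (tendsto_card_sfClass (Or.inl rfl) hk)
    (((tendsto_card_sfClass (r := 1) (Or.inl rfl) (hk.mul hpo)).add
      (tendsto_div_of_tendsto hp.pos (tendsto_card_sfClass hr' (hk.mul hpo)))).congr
        fun N => by rw [hcount, add_div])
  have hp0 : (0 : ℝ) < p := by exact_mod_cast hp.pos
  rw [h]
  field_simp

end FA.LValueDistribution
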