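import Fermat.Agent.LValueDistribution.MeanSquare
import Fermat.Agent.ErdosWintner.Measure
import Mathlib.Analysis.SpecialFunctions.Trigonometric.Bounds

/-!
# The limit law of `log L(1, (-n / ·))`

Its characteristic function is `lim ∏_{p ≤ y} E exp (-i t log (1 - X_p / p))` (Chowla-Erdős,
Elliott).
-/

set_option autoImplicit false

noncomputable section

open Finset Filter MeasureTheory Complex
open scoped Topology ENNReal BoundedContinuousFunction
open FA.ClassNumberExtremes (jn oddPrimesUp mem_oddPrimesUp abs_jn_le)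

namespace FA.LValueDistribution

/-- `exp (i x)`. -/
def phase (x : ℝ) : ℂ := Complex.exp ((x : ℂ) * I)

theorem norm_phase (x : ℝ) : ‖phase x‖ = 1 := Complex.norm_exp_ofReal_mul_I x

theorem norm_phase_sub_le (x y : ℝ) : ‖phase x - phase y‖ ≤ |x - y| := by
  have e : phase x - phase y = phase y * (Complex.exp (I * ((x - y : ℝ) : ℂ)) - 1) := by
    simp only [phase]
    rw [mul_sub, mul_one, ← Complex.exp_add]
    congr 1
    push_cast
    ring_nf
  rw [e, norm_mul, norm_phase, one_mul]
  exact (Real.norm_exp_I_mul_ofReal_sub_one_le (x := x - y)).trans (le_of_eq (Real.norm_eq_abs _))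

theorem norm_phase_sub_le_two (x y : ℝ) : ‖phase x - phase y‖ ≤ 2 :=
  (norm_sub_le _ _).trans (by rw [norm_phase, norm_phase]; norm_num)

/-- The phase of the factor at `p`. -/
def localPhase (t : ℝ) (p : ℕ) (x : ℝ) : ℂ := phase (-t * Real.log (1 - x / p))

/-- The characteristic function of the Euler product up to `y`. -/
def truncChar (y : ℕ) (t : ℝ) : ℂ := ∏ p ∈ oddPrimesUp y, primeMean p (localPhase t p)

theorem phase_log_eProd (y n : ℕ) (t : ℝ) :
    phase (t * Real.log (eProd y n)) = ∏ p ∈ oddPrimesUp y, localPhase t p (jn n p) := by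
  simp only [phase, localPhase, eProd]
  rw [← Complex.exp_sum, Real.log_prod fun p hp =>
    (inv_pos.mpr (factor_pos (mem_oddPrimesUp.mp hp).1)).ne', Finset.mul_sum, Complex.ofReal_sum,
    Finset.sum_mul]
  congr 1
  refine Finset.sum_congr rfl fun p _ => ?_
  rw [Real.log_inv, mul_neg, neg_mul]

theorem oddPrimes_spec {y : ℕ} : ∀ p ∈ oddPrimesUp y, p.Prime ∧ p ≠ 2 := fun _ hp =>
  ⟨(mem_oddPrimesUp.mp hp).1, (mem_oddPrimesUp.mp hp).2.1⟩

theorem tendsto_truncChar (y : ℕ) (t : ℝ) :
    Tendsto (sfMean fun n => phase (t * Real.log (eProd y n))) atTop (𝓝 (truncChar y t)) := by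
  simp only [phase_log_eProd]
  exact tendsto_mean_prod _ oddPrimes_spec _

theorem tendsto_avg_inv_eProd (y : ℕ) :
    Tendsto (sfAvg fun n => (eProd y n)⁻¹) atTop (𝓝 1) := by
  have h := tendsto_avg_prod (oddPrimesUp y) oddPrimes_spec fun p x => 1 - x / p
  have e1 : ∀ p ∈ oddPrimesUp y, primeAvg p (fun x => 1 - x / p) = 1 := fun p _ => by
    have : (p : ℝ) + 1 ≠ 0 := by positivity
    simp only [primeAvg]
    field_simp
    ring
  rw [Finset.prod_congr rfl e1, Finset.prod_const_one] at h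
  refine h.congr fun N => ?_
  simp [eProd]

theorem phase_log_close {L e η : ℝ} (t : ℝ) (hL : 0 < L) (he : 0 < e) (hη : 0 < η) :
    ‖phase (t * Real.log L) - phase (t * Real.log e)‖ ≤
      |t| * η + 4 * η * e⁻¹ + (|t| / (4 * η ^ 3) + 2 / η ^ 2) * (L - e) ^ 2 := by
  have h2 := norm_phase_sub_le_two (t * Real.log L) (t * Real.log e)
  have t1 : 0 ≤ |t| * η := by positivity
  have t2 : 0 ≤ 4 * η * e⁻¹ := by positivity
  have t3 : 0 ≤ |t| / (4 * η ^ 3) * (L - e) ^ 2 := by positivity
  have t4 : 0 ≤ 2 / η ^ 2 * (L - e) ^ 2 := by positivity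
  rw [add_mul]
  by_cases hs : e < 2 * η
  · have : 2 ≤ 4 * η * e⁻¹ := by
      rw [← div_eq_mul_inv, le_div_iff₀ he]; linarith
    linarith
  by_cases hd : η < |L - e|
  · have : 2 ≤ 2 / η ^ 2 * (L - e) ^ 2 := by
      rw [div_mul_eq_mul_div, le_div_iff₀ (by positivity)]
      have := pow_le_pow_left₀ hη.le hd.le 2
      rw [sq_abs] at this
      linarith
    linarith
  push Not at hs hd
  obtain ⟨hd1, hd2⟩ := abs_le.mp hd
  have hlog : |Real.log L - Real.log e| ≤ |L - e| / η := by
    rw [← Real.log_div hL.ne' he.ne', abs_le]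
    constructor
    · have h := Real.one_sub_inv_le_log_of_pos (div_pos hL he)
      rw [inv_div] at h
      refine le_trans ?_ h
      have hLη : η ≤ L := by linarith
      have : (e - L) / L ≤ |L - e| / η := by
        refine (div_le_div_of_nonneg_right
          ((le_abs_self (e - L)).trans_eq (abs_sub_comm e L)) hL.le).trans ?_
        exact div_le_div_of_nonneg_left (abs_nonneg _) hη hLη
      rw [sub_div, div_self hL.ne'] at this
      linarith
    · refine (Real.log_le_sub_one_of_pos (div_pos hL he)).trans ?_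
      rw [div_sub_one he.ne']
      exact (div_le_div_of_nonneg_right (le_abs_self _) he.le).trans
        (div_le_div_of_nonneg_left (abs_nonneg _) hη (by linarith))
  have h1 := norm_phase_sub_le (t * Real.log L) (t * Real.log e)
  rw [← mul_sub, abs_mul] at h1
  have ham : |L - e| / η ≤ η + 1 / (4 * η ^ 3) * (L - e) ^ 2 := by
    rw [← sq_abs (L - e), div_le_iff₀ hη, add_mul,
      show 1 / (4 * η ^ 3) * |L - e| ^ 2 * η = |L - e| ^ 2 / (4 * η ^ 2) by field_simp,
      ← sub_le_iff_le_add', le_div_iff₀ (by positivity)]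
    nlinarith [sq_nonneg (|L - e| - 2 * η ^ 2)]
  have := mul_le_mul_of_nonneg_left (hlog.trans ham) (abs_nonneg t)
  rw [mul_add, ← mul_assoc, mul_one_div] at this
  linarith

/-- The mean of `exp (i t log L(1, χ))`. -/
def meanPhase (N : ℕ) (t : ℝ) : ℂ := sfMean (fun n => phase (t * Real.log (LV n))) N

/-- The Euler products give the characteristic function uniformly for `|t| ≤ T`. -/
theorem exists_close (T : ℝ) {ε : ℝ} (hε : 0 < ε) :
    ∃ y₀ : ℕ, ∀ y, y₀ ≤ y → ∀ t : ℝ, |t| ≤ T → ∀ᶠ N : ℕ in atTop,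
      ‖meanPhase N t - truncChar y t‖ ≤ ε := by
  set η := ε / (3 * (|T| + 8)) with hη
  have hη0 : 0 < η := by positivity
  set C := |T| / (4 * η ^ 3) + 2 / η ^ 2 with hC
  have hC0 : 0 < C := by positivity
  obtain ⟨y₀, hy₀⟩ := mean_square (show 0 < ε / (3 * C) by positivity)
  refine ⟨y₀, fun y hy t ht => ?_⟩
  have h2 := (tendsto_avg_inv_eProd y).eventually (eventually_le_nhds one_lt_two)
  have h3 := (tendsto_iff_norm_sub_tendsto_zero.mp (tendsto_truncChar y t)).eventually
    (eventually_le_nhds (show 0 < ε / 3 by positivity))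
  filter_upwards [hy₀ y hy, h2, h3, eventually_ge_atTop 1] with N h1 h2 h3 hN
  have hT : |t| ≤ |T| := ht.trans (le_abs_self T)
  have hmain : ‖meanPhase N t - sfMean (fun n => phase (t * Real.log (eProd y n))) N‖ ≤
      |T| * η + 4 * η * 2 + C * (ε / (3 * C)) := by
    refine (norm_sfMean_sub_le _ _ N).trans ?_
    refine (sfAvg_mono (g := fun n => |T| * η + 4 * η * (eProd y n)⁻¹ +
      C * (LV n - eProd y n) ^ 2) fun n _ => ?_).trans ?_
    · refine (phase_log_close t (LV_pos n) (eProd_pos y n) hη0).trans ?_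
      rw [hC]
      gcongr
    · rw [sfAvg_add, sfAvg_add, sfAvg_const _ hN, sfAvg_const_mul, sfAvg_const_mul]
      gcongr
  have e1 : |T| * η + 4 * η * 2 = ε / 3 := by
    rw [hη]; field_simp; ring
  have e2 : C * (ε / (3 * C)) = ε / 3 := by field_simp
  calc ‖meanPhase N t - truncChar y t‖
      ≤ ‖meanPhase N t - sfMean (fun n => phase (t * Real.log (eProd y n))) N‖ +
        ‖sfMean (fun n => phase (t * Real.log (eProd y n))) N - truncChar y t‖ :=
          norm_sub_le_norm_sub_add_norm_sub _ _ _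
    _ ≤ ε := by linarith

theorem cauchySeq_truncChar (t : ℝ) : CauchySeq fun y => truncChar y t := by
  rw [Metric.cauchySeq_iff']
  intro ε hε
  obtain ⟨y₀, hy₀⟩ := exists_close |t| (show 0 < ε / 3 by positivity)
  refine ⟨y₀, fun y hy => ?_⟩
  obtain ⟨N, h1, h2⟩ := ((hy₀ y hy t le_rfl).and (hy₀ y₀ le_rfl t le_rfl)).exists
  rw [dist_eq_norm]
  refine lt_of_le_of_lt (norm_sub_le_norm_sub_add_norm_sub _ (meanPhase N t) _) ?_
  rw [norm_sub_rev (truncChar y t)]
  linarith

/-- The characteristic function of the limit law. -/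
def limChar (t : ℝ) : ℂ := limUnder atTop fun y => truncChar y t

theorem tendsto_limChar (t : ℝ) : Tendsto (fun y => truncChar y t) atTop (𝓝 (limChar t)) :=
  (cauchySeq_truncChar t).tendsto_limUnder

theorem exists_limChar_close (T : ℝ) {ε : ℝ} (hε : 0 < ε) :
    ∃ y₀ : ℕ, ∀ y, y₀ ≤ y → ∀ t : ℝ, |t| ≤ T → ‖limChar t - truncChar y t‖ ≤ ε := by
  obtain ⟨y₀, hy₀⟩ := exists_close T (show 0 < ε / 2 by positivity)
  refine ⟨y₀, fun y hy t ht => ?_⟩
  refine le_of_tendsto ((tendsto_limChar t).sub_const (truncChar y t)).norm ?_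
  filter_upwards [eventually_ge_atTop y₀] with z hz
  obtain ⟨N, h1, h2⟩ := ((hy₀ y hy t ht).and (hy₀ z hz t ht)).exists
  refine (norm_sub_le_norm_sub_add_norm_sub _ (meanPhase N t) _).trans ?_
  rw [norm_sub_rev (truncChar z t)]
  linarith

theorem tendsto_meanPhase (t : ℝ) :
    Tendsto (fun N => meanPhase N t) atTop (𝓝 (limChar t)) := by
  rw [Metric.tendsto_nhds]
  intro ε hε
  obtain ⟨y₀, hy₀⟩ := exists_close |t| (show 0 < ε / 3 by positivity)
  obtain ⟨y₁, hy₁⟩ := exists_limChar_close |t| (show 0 < ε / 3 by positivity)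
  filter_upwards [hy₀ (max y₀ y₁) (le_max_left _ _) t le_rfl] with N h1
  have h2 := hy₁ (max y₀ y₁) (le_max_right _ _) t le_rfl
  rw [dist_eq_norm]
  refine lt_of_le_of_lt (norm_sub_le_norm_sub_add_norm_sub _ (truncChar (max y₀ y₁) t) _) ?_
  rw [norm_sub_rev (truncChar _ t)]
  linarith

theorem continuous_truncChar (y : ℕ) : Continuous (truncChar y) := by
  unfold truncChar primeMean localPhase phase
  fun_prop

theorem continuousAt_limChar : ContinuousAt limChar 0 := by
  have hunif : TendstoUniformlyOn truncChar limChar atTop (Set.Icc (-1 : ℝ) 1) := by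
    rw [Metric.tendstoUniformlyOn_iff]
    intro ε hε
    obtain ⟨y₀, hy₀⟩ := exists_limChar_close 1 (show 0 < ε / 2 by positivity)
    filter_upwards [eventually_ge_atTop y₀] with y hy t ht
    rw [dist_eq_norm]
    have := hy₀ y hy t (abs_le.mpr ht)
    linarith
  exact (hunif.continuousOn (Frequently.of_forall fun y => (continuous_truncChar y).continuousOn)
    ).continuousAt (Icc_mem_nhds (by norm_num) (by norm_num))

/-- The law of `log L(1, χ)` over `sfSet (N + 1)`. -/
def sfLaw (N : ℕ) : ProbabilityMeasure ℝ :=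
  ⟨((sfSet (N + 1)).card : ℝ≥0∞)⁻¹ • ∑ n ∈ sfSet (N + 1), Measure.dirac (Real.log (LV n)), by
    constructor
    have h : ((sfSet (N + 1)).card : ℝ≥0∞) ≠ 0 := by
      simp only [ne_eq, Nat.cast_eq_zero, Finset.card_eq_zero]
      exact Finset.ne_empty_of_mem (one_mem_sfSet (N := N + 1) (by omega))
    simp [ENNReal.inv_mul_cancel h]⟩

theorem integral_sfLaw {𝕜 : Type*} [RCLike 𝕜] (F : ℝ →ᵇ 𝕜) (N : ℕ) :
    ∫ x, F x ∂(sfLaw N : Measure ℝ) =
      (∑ n ∈ sfSet (N + 1), F (Real.log (LV n))) / ((sfSet (N + 1)).card : 𝕜) := by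
  rw [sfLaw, ProbabilityMeasure.coe_mk, integral_smul_measure,
    integral_finsetSum_measure (fun n _ => F.integrable _), ENNReal.toReal_inv,
    ENNReal.toReal_natCast]
  simp [RCLike.real_smul_eq_coe_mul, div_eq_inv_mul]

theorem charFun_sfLaw (N : ℕ) (t : ℝ) :
    charFun (sfLaw N : Measure ℝ) t = meanPhase (N + 1) t := by
  rw [charFun_eq_integral_innerProbChar, integral_sfLaw]
  simp [BoundedContinuousFunction.innerProbChar_apply, meanPhase, sfMean, phase, mul_comm]

theorem tendsto_charFun_sfLaw (t : ℝ) :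
    Tendsto (fun N => charFun (sfLaw N : Measure ℝ) t) atTop (𝓝 (limChar t)) := by
  simp only [charFun_sfLaw]
  exact (tendsto_meanPhase t).comp (tendsto_add_atTop_nat 1)

/-- The limit law of `log L(1, χ)`. -/
def logLaw : ProbabilityMeasure ℝ :=
  (FA.ErdosWintner.exists_tendsto_of_charFun continuousAt_limChar tendsto_charFun_sfLaw).choose

theorem tendsto_sfLaw : Tendsto sfLaw atTop (𝓝 logLaw) :=
  (FA.ErdosWintner.exists_tendsto_of_charFun continuousAt_limChar
    tendsto_charFun_sfLaw).choose_spec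

theorem charFun_logLaw (t : ℝ) : charFun (logLaw : Measure ℝ) t = limChar t :=
  tendsto_nhds_unique (ProbabilityMeasure.tendsto_iff_tendsto_charFun.1 tendsto_sfLaw t)
    (tendsto_charFun_sfLaw t)

end FA.LValueDistribution
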