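import Fermat.Agent.LValueDistribution.Support
import Mathlib.Probability.CDF

/-!
# The distribution function of `L(1, (-n / ·))`
-/

set_option autoImplicit false

noncomputable section

open Finset Filter MeasureTheory ProbabilityTheory
open scoped Topology
open FA.OrderTheta (signChar Cl)

namespace FA.LValueDistribution

/-- The distribution function of `L(1, χ)`. -/
def lValueDist (x : ℝ) : ℝ := if x ≤ 0 then 0 else cdf (logLaw : Measure ℝ) (Real.log x)

theorem continuous_cdf_logLaw : Continuous (cdf (logLaw : Measure ℝ)) := by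
  set f := cdf (logLaw : Measure ℝ) with hf
  refine continuous_iff_continuousAt.mpr fun x => ?_
  rw [continuousAt_iff_continuous_left'_right']
  refine ⟨(Monotone.continuousWithinAt_Iio_iff_leftLim_eq f.mono).mpr ?_,
    (f.right_continuous x).mono Set.Ioi_subset_Ici_self⟩
  have h := StieltjesFunction.measure_singleton f x
  rw [hf, measure_cdf, logLaw_singleton, eq_comm, ENNReal.ofReal_eq_zero] at h
  exact le_antisymm (f.mono.leftLim_le le_rfl) (by rw [hf]; linarith)

theorem strictMono_cdf_logLaw : StrictMono (cdf (logLaw : Measure ℝ)) := by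
  intro a b hab
  set μ := (logLaw : Measure ℝ)
  have h := logLaw_Icc_pos ((a + b) / 2) (show 0 < (b - a) / 12 by linarith)
  rw [cdf_eq_real, cdf_eq_real]
  have hu : μ.real (Set.Iic b) = μ.real (Set.Iic a) + μ.real (Set.Ioc a b) := by
    rw [← measureReal_union (Set.Iic_disjoint_Ioc le_rfl) measurableSet_Ioc,
      Set.Iic_union_Ioc_eq_Iic hab.le]
  have hsub : μ.real (Set.Icc ((a + b) / 2 - 3 * ((b - a) / 12))
      ((a + b) / 2 + 3 * ((b - a) / 12))) ≤ μ.real (Set.Ioc a b) :=
    measureReal_mono fun x hx => ⟨by linarith [hx.1], by linarith [hx.2]⟩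
  linarith

theorem continuous_lValueDist : Continuous lValueDist := by
  refine continuous_iff_continuousAt.mpr fun x => ?_
  rcases lt_trichotomy x 0 with hx | hx | hx
  · refine (continuousAt_const (y := (0 : ℝ))).congr ?_
    filter_upwards [Iio_mem_nhds hx] with z hz
    rw [lValueDist, if_pos (le_of_lt hz)]
  · subst hx
    rw [continuousAt_iff_continuous_left'_right']
    constructor
    · refine continuousWithinAt_const.congr (f := fun _ => (0 : ℝ)) (fun z hz => ?_) ?_
      · rw [lValueDist, if_pos (le_of_lt hz)]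
      · rw [lValueDist, if_pos le_rfl]
    · rw [ContinuousWithinAt, show lValueDist 0 = 0 from if_pos le_rfl]
      refine ((tendsto_cdf_atBot (logLaw : Measure ℝ)).comp Real.tendsto_log_nhdsGT_zero).congr' ?_
      filter_upwards [self_mem_nhdsWithin] with z hz
      rw [Function.comp_apply, lValueDist, if_neg (not_le.mpr hz)]
  · refine (continuous_cdf_logLaw.continuousAt.comp (Real.continuousAt_log hx.ne')).congr ?_
    filter_upwards [Ioi_mem_nhds hx] with z hz
    rw [Function.comp_apply, lValueDist, if_neg (not_le.mpr hz)]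

theorem strictMonoOn_lValueDist : StrictMonoOn lValueDist (Set.Ici 0) := by
  intro a ha b _ hab
  have hb : ¬ b ≤ 0 := not_le.mpr (lt_of_le_of_lt ha hab)
  unfold lValueDist
  rw [if_neg hb]
  split_ifs with h
  · exact lt_of_le_of_lt (cdf_nonneg _ _) (strictMono_cdf_logLaw (sub_one_lt (Real.log b)))
  · exact strictMono_cdf_logLaw (Real.log_lt_log (not_le.mp h) hab)

theorem tendsto_lValueDist : Tendsto lValueDist atTop (𝓝 1) := by
  refine ((tendsto_cdf_atTop (logLaw : Measure ℝ)).comp Real.tendsto_log_atTop).congr' ?_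
  filter_upwards [eventually_gt_atTop 0] with z hz
  rw [Function.comp_apply, lValueDist, if_neg (not_le.mpr hz)]

open scoped Classical in
/-- **The density of `L(1, χ) ≤ x`.** -/
theorem tendsto_count (x : ℝ) :
    Tendsto (fun N : ℕ => (((sfSet N).filter fun n => LV n ≤ x).card : ℝ) / (sfSet N).card) atTop
      (𝓝 (lValueDist x)) := by
  unfold lValueDist
  split_ifs with hx
  · refine tendsto_const_nhds.congr fun N => ?_
    rw [Finset.filter_eq_empty_iff.mpr fun n _ => not_le.mpr (hx.trans_lt (LV_pos n))]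
    simp
  · rw [cdf_eq_real, ← tendsto_add_atTop_iff_nat 1]
    have hx' := not_le.mp hx
    have hfront : (logLaw : Measure ℝ) (frontier (Set.Iic (Real.log x))) = 0 := by
      rw [frontier_Iic]; exact logLaw_singleton _
    refine (tendsto_sfLaw_real hfront).congr fun N => ?_
    rw [sfLaw_real N measurableSet_Iic, sfAvg, Finset.card_filter, Nat.cast_sum]
    congr 1
    refine Finset.sum_congr rfl fun n _ => ?_
    simp [Set.mem_Iic, Real.log_le_log_iff (LV_pos n) hx']

theorem LV_eq_re (n : ℕ) [NeZero n] :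
    LV n = (DirichletCharacter.LFunction (signChar n) 1).re := by
  rw [FA.ClassNumberExtremes.LFunction_eq_LVal, Complex.ofReal_re, LV_eq]

open scoped Classical in
/-- The counting set in terms of the L-function. -/
theorem filter_LFunction (x : ℝ) (N : ℕ) :
    (Finset.Icc 1 N).filter (fun n => Squarefree n ∧ n % 4 = 1 ∧
      ∃ _ : NeZero n, (DirichletCharacter.LFunction (signChar n) 1).re ≤ x) =
      (sfSet N).filter fun n => LV n ≤ x := by
  ext n
  simp only [Finset.mem_filter, mem_sfSet]
  constructor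
  · rintro ⟨hI, hs, h4, hn, hle⟩
    exact ⟨⟨hI, hs, h4⟩, by rwa [LV_eq_re]⟩
  · rintro ⟨⟨hI, hs, h4⟩, hle⟩
    have hn : NeZero n := ⟨by omega⟩
    exact ⟨hI, hs, h4, hn, by rwa [← LV_eq_re]⟩

theorem filter_sfSet (N : ℕ) :
    (Finset.Icc 1 N).filter (fun n => Squarefree n ∧ n % 4 = 1) = sfSet N := by
  ext n; simp [mem_sfSet]

open scoped Classical in
/-- **The density of `h(-4n) ≤ x √n`.** -/
theorem tendsto_count_classNumber (x : ℝ) :
    Tendsto (fun N : ℕ => (((Finset.Icc 1 N).filter fun n => Squarefree n ∧ n % 4 = 1 ∧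
      ∃ _ : NeZero n, (Nat.card (Cl n) : ℝ) ≤ x * Real.sqrt n).card : ℝ) /
      (sfSet N).card) atTop (𝓝 (lValueDist (Real.pi * x / 2))) := by
  set A := fun N : ℕ => (Finset.Icc 1 N).filter fun n => Squarefree n ∧ n % 4 = 1 ∧
      ∃ _ : NeZero n, (Nat.card (Cl n) : ℝ) ≤ x * Real.sqrt n with hA
  set B := fun N : ℕ => (sfSet N).filter fun n => LV n ≤ Real.pi * x / 2 with hB
  have hiff : ∀ n : ℕ, 1 < n → ∀ _ : NeZero n,
      ((Nat.card (Cl n) : ℝ) ≤ x * Real.sqrt n ↔ LV n ≤ Real.pi * x / 2) := fun n hn _ => by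
    rw [LV_eq, FA.ClassNumberExtremes.card_cl_eq hn]
    have hs : 0 < Real.sqrt n := Real.sqrt_pos.mpr (by exact_mod_cast (by omega : 0 < n))
    rw [show 2 * Real.sqrt n / Real.pi * FA.ClassNumberExtremes.LVal n =
      (2 / Real.pi * FA.ClassNumberExtremes.LVal n) * Real.sqrt n by ring,
      mul_le_mul_iff_left₀ hs, div_mul_eq_mul_div, div_le_iff₀ Real.pi_pos]
    constructor <;> intro h <;> linarith
  have hAB : ∀ N, |((A N).card : ℝ) - (B N).card| ≤ 1 := fun N => by
    have h1 : ∀ n ∈ A N, n ≠ 1 → n ∈ B N := fun n hn h1 => by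
      simp only [hA, hB, Finset.mem_filter, mem_sfSet] at hn ⊢
      obtain ⟨hI, hs, h4, hne, hle⟩ := hn
      rw [Finset.mem_Icc] at hI
      exact ⟨⟨Finset.mem_Icc.mpr hI, hs, h4⟩, (hiff n (by omega) hne).mp hle⟩
    have h2 : ∀ n ∈ B N, n ≠ 1 → n ∈ A N := fun n hn h1 => by
      simp only [hA, hB, Finset.mem_filter, mem_sfSet] at hn ⊢
      obtain ⟨⟨hI, hs, h4⟩, hle⟩ := hn
      have hne : NeZero n := ⟨by omega⟩
      rw [Finset.mem_Icc] at hI
      exact ⟨Finset.mem_Icc.mpr hI, hs, h4, hne, (hiff n (by omega) hne).mpr hle⟩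
    have e : ∀ S T : Finset ℕ, (∀ n ∈ S, n ≠ 1 → n ∈ T) → (S.card : ℝ) ≤ T.card + 1 := by
      intro S T h
      have : S ⊆ insert 1 T := fun n hn => by
        rcases eq_or_ne n 1 with rfl | h'
        exacts [Finset.mem_insert_self _ _, Finset.mem_insert_of_mem (h n hn h')]
      exact_mod_cast (Finset.card_le_card this).trans (Finset.card_insert_le _ _)
    rw [abs_le]
    have := e _ _ h1
    have := e _ _ h2
    constructor <;> linarith
  have hinf : Tendsto (fun N : ℕ => ((sfSet N).card : ℝ)) atTop atTop :=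
    tendsto_atTop_mono' atTop eventually_card_sfSet_ge
      (tendsto_natCast_atTop_atTop.const_mul_atTop (by linarith [sfDensity_one_pos]))
  have hdiff : Tendsto (fun N : ℕ => (((A N).card : ℝ) - (B N).card) / (sfSet N).card) atTop
      (𝓝 0) := by
    refine squeeze_zero_norm (fun N => ?_) ((tendsto_const_nhds (x := (1 : ℝ))).div_atTop hinf)
    rw [Real.norm_eq_abs, abs_div, Nat.abs_cast]
    exact div_le_div_of_nonneg_right (hAB N) (Nat.cast_nonneg _)
  have h := hdiff.add (tendsto_count (Real.pi * x / 2))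
  rw [zero_add] at h
  refine h.congr fun N => ?_
  rw [← add_div, sub_add_cancel]

end FA.LValueDistribution
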