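import Fermat.Agent.LValueDistribution.Product
import Fermat.Agent.ClassNumberExtremes.Select

/-!
# The Euler product approximates `L(1, χ)` in mean square

For `y → ∞` the mean square over the squarefree `n ≤ N`, `n ≡ 1 (mod 4)`, of
`L(1, (-n / ·)) - ∏_{p ≤ y} (1 - (-n / p) / p)⁻¹` tends to zero, uniformly in large `N`.
-/

set_option autoImplicit false

noncomputable section

open Finset Filter
open scoped Topology
open FA.ClassNumberExtremes (jn jn_mul jn_even abs_jn_le SmoothUp oddPrimesUp mem_oddPrimesUp LVal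
  LVal_pos jnFun jnFun_lt_one invSqrtFun invSqrtFun_lt_one hasSum_smooth abs_LVal_sub_le)

namespace FA.LValueDistribution

/-- `L(1, (-n / ·))` as a function of `n`, one at `0`. -/
def LV (n : ℕ) : ℝ :=
  if h : n = 0 then 1 else haveI : NeZero n := ⟨h⟩; LVal n

theorem LV_eq (n : ℕ) [NeZero n] : LV n = LVal n := by
  rw [LV, dif_neg (NeZero.ne n)]

theorem LV_pos (n : ℕ) : 0 < LV n := by
  rcases eq_or_ne n 0 with rfl | h
  · rw [LV, dif_pos rfl]; exact one_pos
  · haveI : NeZero n := ⟨h⟩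
    rw [LV_eq]; exact LVal_pos

/-- The Euler product up to `y`. -/
def eProd (y n : ℕ) : ℝ := ∏ p ∈ oddPrimesUp y, (1 - jn n p / p)⁻¹

theorem factor_pos {n p : ℕ} (hp : p.Prime) : 0 < 1 - jn n p / p := by
  have := (abs_lt.mp (jnFun_lt_one n hp)).2
  change jn n p / p < 1 at this
  linarith

theorem eProd_pos (y n : ℕ) : 0 < eProd y n :=
  Finset.prod_pos fun _ hp => inv_pos.mpr (factor_pos (mem_oddPrimesUp.mp hp).1)

theorem eProd_eq (y n : ℕ) :
    eProd y n = ∏ p ∈ (range (y + 1)).filter Nat.Prime, (1 - jnFun n p)⁻¹ := by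
  refine Finset.prod_subset (fun p hp => ?_) fun p hp hpn => ?_
  · obtain ⟨h1, -, h3⟩ := mem_oddPrimesUp.mp hp
    exact mem_filter.mpr ⟨mem_range.mpr (by omega), h1⟩
  · rw [mem_filter, mem_range] at hp
    have h2 : p = 2 := by
      by_contra h
      exact hpn (mem_oddPrimesUp.mpr ⟨hp.2, h, by omega⟩)
    subst h2
    show (1 - jn n 2 / ((2 : ℕ) : ℝ))⁻¹ = 1
    rw [jn_even n (by decide)]
    norm_num

open scoped Classical in
theorem abs_smooth_tail_le (y n : ℕ) {Z : ℕ} (hZ : 1 ≤ Z) :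
    |∑ m ∈ Icc 1 Z, (if SmoothUp y m then jn n m / m else 0) - eProd y n| ≤
      4 ^ (y + 1) / Real.sqrt Z := by
  have hF := hasSum_smooth y (f := jnFun n) (fun hp => jnFun_lt_one n hp)
  rw [← eProd_eq] at hF
  have hG := hasSum_smooth y (f := invSqrtFun) (fun hp => invSqrtFun_lt_one hp)
  set F : ℕ → ℝ := fun m => if SmoothUp y m then jn n m / m else 0 with hFdef
  set G : ℕ → ℝ := fun m => if SmoothUp y m then (Real.sqrt m)⁻¹ else 0 with hGdef
  change HasSum F _ at hF
  change HasSum G _ at hG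
  have hsZ : 0 < Real.sqrt Z := Real.sqrt_pos.mpr (by exact_mod_cast hZ)
  have hsub : HasSum (fun m => if m ∈ Icc 1 Z then F m else 0) (∑ m ∈ Icc 1 Z, F m) := by
    convert hasSum_sum_of_ne_finset_zero (L := SummationFilter.unconditional ℕ)
      (f := fun m => if m ∈ Icc 1 Z then F m else 0) (s := Icc 1 Z) (fun m hm => if_neg hm) using 1
    exact Finset.sum_congr rfl fun m hm => (if_pos hm).symm
  have hb : ∀ m, ‖F m - (if m ∈ Icc 1 Z then F m else 0)‖ ≤ (Real.sqrt Z)⁻¹ * G m := by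
    intro m
    have hG0 : 0 ≤ G m := by simp only [hGdef]; split_ifs <;> positivity
    split_ifs with hm
    · simpa using mul_nonneg (inv_nonneg.mpr hsZ.le) hG0
    · simp only [sub_zero, hFdef, hGdef]
      by_cases hs : SmoothUp y m
      · rw [if_pos hs, if_pos hs]
        have hm0 : m ≠ 0 := fun h => by
          subst h
          obtain ⟨p, hp, hpp⟩ := Nat.exists_infinite_primes (y + 1)
          have := hs p hpp (dvd_zero p)
          omega
        have hmZ : (Z : ℝ) ≤ m := by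
          rw [mem_Icc] at hm; exact_mod_cast (by omega : Z ≤ m)
        have hm1 : (0 : ℝ) < m := by exact_mod_cast Nat.pos_of_ne_zero hm0
        rw [Real.norm_eq_abs, abs_div, Nat.abs_cast]
        refine (div_le_div_of_nonneg_right (abs_jn_le n m) hm1.le).trans ?_
        rw [one_div]
        conv_lhs => rw [← Real.mul_self_sqrt hm1.le, mul_inv]
        gcongr
      · simp [hs]
  have hbound := (hF.sub hsub).norm_le_of_bounded (hG.mul_left (Real.sqrt Z)⁻¹) hb
  have hprod : ∏ p ∈ (range (y + 1)).filter Nat.Prime, (1 - invSqrtFun p)⁻¹ ≤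
      (4 : ℝ) ^ (y + 1) := by
    calc _ ≤ ∏ _p ∈ (range (y + 1)).filter Nat.Prime, (4 : ℝ) := by
          refine Finset.prod_le_prod (fun p hp => inv_nonneg.mpr ?_) (fun p hp => ?_)
          · linarith [(abs_lt.mp (invSqrtFun_lt_one (mem_filter.mp hp).2)).2]
          · show (1 - (Real.sqrt p)⁻¹)⁻¹ ≤ 4
            have h2 : (4 / 3 : ℝ) ≤ Real.sqrt p := Real.le_sqrt_of_sq_le (by
              have : (2 : ℝ) ≤ p := by exact_mod_cast (mem_filter.mp hp).2.two_le
              norm_num; linarith)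
            have h3 : (Real.sqrt p)⁻¹ ≤ (4 / 3 : ℝ)⁻¹ := inv_anti₀ (by norm_num) h2
            exact inv_le_of_inv_le₀ (by norm_num) (by norm_num at h3 ⊢; linarith)
      _ ≤ (4 : ℝ) ^ (y + 1) := by
          rw [Finset.prod_const]
          exact pow_le_pow_right₀ (by norm_num)
            ((Finset.card_filter_le _ _).trans (Finset.card_range _).le)
  rw [← Real.norm_eq_abs, norm_sub_rev]
  refine hbound.trans ?_
  rw [div_eq_inv_mul]
  gcongr

/-- `[a b is a square] / (a b)`. -/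
def pairTerm (x : ℕ × ℕ) : ℝ := if IsSquare (x.1 * x.2) then ((x.1 : ℝ) * x.2)⁻¹ else 0

theorem pairTerm_nonneg (x : ℕ × ℕ) : 0 ≤ pairTerm x := by
  unfold pairTerm; split_ifs <;> positivity

theorem summable_pairTerm : Summable pairTerm := by
  have h2 : Summable (fun g : ℕ => ((g : ℝ) ^ 2)⁻¹) := Real.summable_nat_pow_inv.mpr one_lt_two
  set S := ∑' g : ℕ, ((g : ℝ) ^ 2)⁻¹
  refine summable_of_sum_le (c := S * (S * S)) pairTerm_nonneg fun u => ?_
  set B := range (u.sup (fun x => x.1 + x.2) + 1)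
  calc ∑ x ∈ u, pairTerm x = ∑ x ∈ u.filter (fun x => pairTerm x ≠ 0), pairTerm x :=
        (Finset.sum_filter_ne_zero _).symm
    _ ≤ ∑ x ∈ (B ×ˢ (B ×ˢ B)).image
          (fun z : ℕ × ℕ × ℕ => ((z.1 * z.2.1 ^ 2, z.1 * z.2.2 ^ 2) : ℕ × ℕ)), pairTerm x := by
        refine Finset.sum_le_sum_of_subset_of_nonneg (fun x hx => ?_) fun x _ _ => pairTerm_nonneg x
        obtain ⟨hxu, hx0⟩ := mem_filter.mp hx
        have hsq : IsSquare (x.1 * x.2) := by_contra fun h => hx0 (if_neg h)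
        have h12 : x.1 ≠ 0 ∧ x.2 ≠ 0 := by
          constructor <;> intro h <;> apply hx0 <;> simp [pairTerm, h]
        obtain ⟨g, a, hga, hg⟩ := Nat.sq_mul_squarefree x.1
        obtain ⟨g', b, hgb, hg'⟩ := Nat.sq_mul_squarefree x.2
        have ha0 : a ≠ 0 := fun h => h12.1 (by rw [← hga, h]; simp)
        have hb0 : b ≠ 0 := fun h => h12.2 (by rw [← hgb, h]; simp)
        have hgg : g = g' := by
          refine Nat.eq_of_factorization_eq hg.ne_zero hg'.ne_zero fun p => ?_
          obtain ⟨c, hc⟩ := hsq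
          have hc0 : c ≠ 0 := fun h => mul_ne_zero h12.1 h12.2 (by rw [hc, h, mul_zero])
          have h := congrArg (fun k : ℕ => k.factorization p) hc
          simp only [Nat.factorization_mul h12.1 h12.2, Nat.factorization_mul hc0 hc0,
            Finsupp.coe_add, Pi.add_apply] at h
          rw [← hga, ← hgb, Nat.factorization_mul (pow_ne_zero 2 ha0) hg.ne_zero,
            Nat.factorization_mul (pow_ne_zero 2 hb0) hg'.ne_zero, Nat.factorization_pow,
            Nat.factorization_pow] at h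
          simp only [Finsupp.coe_smul, Finsupp.coe_add, Pi.smul_apply, Pi.add_apply,
            smul_eq_mul] at h
          have := Squarefree.natFactorization_le_one p hg
          have := Squarefree.natFactorization_le_one p hg'
          omega
        subst hgg
        have hle : x.1 + x.2 ≤ u.sup (fun x => x.1 + x.2) :=
          Finset.le_sup (f := fun x : ℕ × ℕ => x.1 + x.2) hxu
        have h1 : g ≤ x.1 := hga ▸ Nat.le_mul_of_pos_left g (pow_pos (Nat.pos_of_ne_zero ha0) 2)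
        have h3 : a ≤ x.1 := hga ▸ (Nat.le_self_pow two_ne_zero a).trans
          (Nat.le_mul_of_pos_right _ hg.ne_zero.bot_lt)
        have h4 : b ≤ x.2 := hgb ▸ (Nat.le_self_pow two_ne_zero b).trans
          (Nat.le_mul_of_pos_right _ hg.ne_zero.bot_lt)
        refine mem_image.mpr ⟨(g, a, b), ?_, ?_⟩
        · simp only [B, mem_product, mem_range]; omega
        · refine Prod.ext ?_ ?_
          · show g * a ^ 2 = x.1
            rw [mul_comm]; exact hga
          · show g * b ^ 2 = x.2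
            rw [mul_comm]; exact hgb
    _ ≤ ∑ z ∈ B ×ˢ (B ×ˢ B), pairTerm (z.1 * z.2.1 ^ 2, z.1 * z.2.2 ^ 2) :=
        Finset.sum_image_le_of_nonneg fun x _ => pairTerm_nonneg x
    _ ≤ ∑ z ∈ B ×ˢ (B ×ˢ B),
          ((z.1 : ℝ) ^ 2)⁻¹ * (((z.2.1 : ℝ) ^ 2)⁻¹ * ((z.2.2 : ℝ) ^ 2)⁻¹) := by
        refine Finset.sum_le_sum fun z _ => ?_
        unfold pairTerm
        split_ifs
        · refine le_of_eq ?_
          push_cast
          rw [← mul_inv, ← mul_inv]
          congr 1
          ring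
        · positivity
    _ = (∑ g ∈ B, ((g : ℝ) ^ 2)⁻¹) *
          ((∑ g ∈ B, ((g : ℝ) ^ 2)⁻¹) * ∑ g ∈ B, ((g : ℝ) ^ 2)⁻¹) := by
        rw [Finset.sum_product, Finset.sum_mul_sum, Finset.sum_mul_sum]
        exact Finset.sum_congr rfl fun g _ => by
          rw [Finset.sum_product, ← Finset.mul_sum]; congr 1; simp only [Finset.mul_sum]
    _ ≤ S * (S * S) := by
        have hB : ∑ g ∈ B, ((g : ℝ) ^ 2)⁻¹ ≤ S := h2.sum_le_tsum B fun g _ => by positivity
        have h0 : 0 ≤ ∑ g ∈ B, ((g : ℝ) ^ 2)⁻¹ := Finset.sum_nonneg fun g _ => by positivity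
        gcongr

theorem exists_pair_tail {ε : ℝ} (hε : 0 < ε) :
    ∃ y₀ : ℕ, ∀ y, y₀ ≤ y → ∀ Z : ℕ, ∑ x ∈ Ioc y Z ×ˢ Ioc y Z, pairTerm x ≤ ε := by
  obtain ⟨s, hs⟩ := summable_iff_vanishing_norm.mp summable_pairTerm ε hε
  refine ⟨s.sup Prod.fst, fun y hy Z => ?_⟩
  have h := hs (Ioc y Z ×ˢ Ioc y Z) (Finset.disjoint_left.mpr fun x hx hxs => by
    rw [mem_product, mem_Ioc] at hx
    have := Finset.le_sup (f := Prod.fst) hxs
    omega)
  exact ((le_abs_self _).trans_lt h).le

theorem sum_inv_sqrt_le (Z : ℕ) : ∑ m ∈ Icc 1 Z, (Real.sqrt m)⁻¹ ≤ 2 * Real.sqrt Z := by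
  induction Z with
  | zero => simp
  | succ k ih =>
    rw [sum_Icc_succ_top (by omega : 1 ≤ k + 1)]
    set a := Real.sqrt k
    set b := Real.sqrt ((k + 1 : ℕ) : ℝ)
    have ha : a ^ 2 = k := Real.sq_sqrt (Nat.cast_nonneg k)
    have hb : b ^ 2 = k + 1 := by rw [Real.sq_sqrt (Nat.cast_nonneg _)]; push_cast; rfl
    have hb0 : 0 < b := Real.sqrt_pos.mpr (by positivity)
    have : b⁻¹ ≤ 2 * b - 2 * a := by
      rw [inv_eq_one_div, div_le_iff₀ hb0]
      nlinarith [sq_nonneg (b - a)]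
    linarith

theorem sum_inv_le (Z : ℕ) : ∑ m ∈ Icc 1 Z, (m : ℝ)⁻¹ ≤ 1 + Real.log Z := by
  have h := harmonic_le_one_add_log Z
  rw [harmonic_eq_sum_Icc, Rat.cast_sum] at h
  simpa using h

open scoped Classical in
/-- The second moment of the part of the series with a prime above `y`. -/
theorem sum_sq_mid_le (y : ℕ) {Z D : ℕ} (hD : 1 ≤ D) (N : ℕ) :
    ∑ n ∈ sfSet N, (∑ m ∈ Icc 1 Z, if SmoothUp y m then 0 else jn n m / m) ^ 2 ≤
      ((sfSet N).card : ℝ) * ∑ x ∈ Ioc y Z ×ˢ Ioc y Z, pairTerm x +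
        ((D : ℝ) * ((1 + Real.log ((Z : ℝ) * Z)) * (2 * Real.sqrt Z) ^ 2) +
          (N : ℝ) / D * (1 + Real.log Z) ^ 2) := by
  set T := (Icc 1 Z).filter fun m => ¬ SmoothUp y m
  have hT : T ⊆ Ioc y Z := fun m hm => by
    simp only [T, mem_filter, mem_Icc] at hm
    refine mem_Ioc.mpr ⟨lt_of_not_ge fun h => hm.2 fun p _ hd => ?_, hm.1.2⟩
    exact (Nat.le_of_dvd hm.1.1 hd).trans h
  have hTI : T ⊆ Icc 1 Z := filter_subset _ _
  have e : ∀ n, (∑ m ∈ Icc 1 Z, if SmoothUp y m then 0 else jn n m / m) ^ 2 =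
      ∑ x ∈ T ×ˢ T, jn n (x.1 * x.2) / ((x.1 : ℝ) * x.2) := fun n => by
    have e' : ∑ m ∈ Icc 1 Z, (if SmoothUp y m then 0 else jn n m / m) = ∑ m ∈ T, jn n m / m := by
      rw [Finset.sum_filter]
      exact Finset.sum_congr rfl fun m _ => by split_ifs <;> rfl
    rw [e', sq, Finset.sum_mul_sum, ← Finset.sum_product']
    exact Finset.sum_congr rfl fun x _ => by rw [jn_mul, div_mul_div_comm]
  set LZ := 1 + Real.log ((Z : ℝ) * Z) with hLZ
  simp only [e]
  rw [Finset.sum_comm]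
  calc ∑ x ∈ T ×ˢ T, ∑ n ∈ sfSet N, jn n (x.1 * x.2) / ((x.1 : ℝ) * x.2)
      ≤ ∑ x ∈ T ×ˢ T, (((sfSet N).card : ℝ) * pairTerm x +
          ((D : ℝ) * (LZ * ((Real.sqrt x.1)⁻¹ * (Real.sqrt x.2)⁻¹)) +
            (N : ℝ) / D * ((x.1 : ℝ)⁻¹ * (x.2 : ℝ)⁻¹))) := by
        refine Finset.sum_le_sum fun x hx => ?_
        rw [mem_product] at hx
        have hx1 := mem_Icc.mp (hTI hx.1)
        have hx2 := mem_Icc.mp (hTI hx.2)
        have h1 : (1 : ℝ) ≤ x.1 := by exact_mod_cast hx1.1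
        have h2 : (1 : ℝ) ≤ x.2 := by exact_mod_cast hx2.1
        have hZ1 : (x.1 : ℝ) ≤ Z := by exact_mod_cast hx1.2
        have hZ2 : (x.2 : ℝ) ≤ Z := by exact_mod_cast hx2.2
        have hlog : 1 + Real.log (((x.1 * x.2 : ℕ)) : ℝ) ≤ LZ := by
          rw [hLZ]; push_cast; gcongr
        have hlog0 : 0 ≤ LZ := by
          refine le_trans ?_ hlog
          exact add_nonneg zero_le_one (Real.log_natCast_nonneg _)
        have hp1 : 0 ≤ (D : ℝ) * (LZ * ((Real.sqrt x.1)⁻¹ * (Real.sqrt x.2)⁻¹)) := by positivity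
        have hp2 : 0 ≤ (N : ℝ) / D * ((x.1 : ℝ)⁻¹ * (x.2 : ℝ)⁻¹) := by positivity
        rw [← Finset.sum_div]
        by_cases hsq : IsSquare (x.1 * x.2)
        · refine le_trans ?_ (le_add_of_nonneg_right (add_nonneg hp1 hp2))
          rw [pairTerm, if_pos hsq, div_eq_mul_inv]
          refine mul_le_mul_of_nonneg_right ?_ (by positivity)
          exact (Finset.sum_le_sum fun n _ => (le_abs_self _).trans (abs_jn_le n _)).trans
            (by simp)
        · by_cases hodd : Odd (x.1 * x.2)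
          · refine le_trans ?_ (le_add_of_nonneg_left
              (mul_nonneg (Nat.cast_nonneg _) (pairTerm_nonneg x)))
            have h := ((le_abs_self _).trans (abs_sum_sfSet_le hodd hsq hD N))
            refine (div_le_div_of_nonneg_right h (by positivity)).trans ?_
            rw [add_div]
            refine add_le_add ?_ (le_of_eq (by field_simp))
            push_cast
            rw [Real.sqrt_mul (by linarith)]
            have hs1 : Real.sqrt x.1 * Real.sqrt x.1 = x.1 := Real.mul_self_sqrt (by linarith)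
            have hs2 : Real.sqrt x.2 * Real.sqrt x.2 = x.2 := Real.mul_self_sqrt (by linarith)
            rw [div_le_iff₀ (by positivity)]
            calc (D : ℝ) * (Real.sqrt x.1 * Real.sqrt x.2 * (1 + Real.log ((x.1 : ℝ) * x.2)))
                ≤ (D : ℝ) * (Real.sqrt x.1 * Real.sqrt x.2 * LZ) := by
                  push_cast at hlog
                  gcongr
              _ = _ := by
                  conv_rhs => arg 2; rw [← hs1, ← hs2]
                  field_simp
          · rw [Finset.sum_eq_zero fun n _ => jn_even n hodd, zero_div]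
            exact add_nonneg (mul_nonneg (Nat.cast_nonneg _) (pairTerm_nonneg x))
              (add_nonneg hp1 hp2)
    _ ≤ _ := by
        rw [Finset.sum_add_distrib, Finset.sum_add_distrib]
        simp only [← Finset.mul_sum]
        rw [Finset.sum_product (s := T) (t := T)
          (f := fun x : ℕ × ℕ => (Real.sqrt x.1)⁻¹ * (Real.sqrt x.2)⁻¹),
          Finset.sum_product (s := T) (t := T) (f := fun x : ℕ × ℕ => (x.1 : ℝ)⁻¹ * (x.2 : ℝ)⁻¹),
          ]
        simp only [← Finset.sum_mul_sum, ← sq]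
        have hlog0 : 0 ≤ LZ := by
          rw [hLZ, ← Nat.cast_mul]
          exact add_nonneg zero_le_one (Real.log_natCast_nonneg _)
        refine add_le_add (mul_le_mul_of_nonneg_left ?_ (Nat.cast_nonneg _))
          (add_le_add ?_ ?_)
        · exact Finset.sum_le_sum_of_subset_of_nonneg (Finset.product_subset_product hT hT)
            fun x _ _ => pairTerm_nonneg x
        · refine mul_le_mul_of_nonneg_left (mul_le_mul_of_nonneg_left ?_ hlog0) (Nat.cast_nonneg D)
          refine pow_le_pow_left₀ (Finset.sum_nonneg fun m _ => by positivity) ?_ 2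
          exact (Finset.sum_le_sum_of_subset_of_nonneg hTI fun m _ _ => by positivity).trans
            (sum_inv_sqrt_le Z)
        · refine mul_le_mul_of_nonneg_left ?_ (by positivity)
          refine pow_le_pow_left₀ (Finset.sum_nonneg fun m _ => by positivity) ?_ 2
          exact (Finset.sum_le_sum_of_subset_of_nonneg hTI fun m _ _ => by positivity).trans
            (sum_inv_le Z)

theorem tendsto_log_sq_div :
    Tendsto (fun R : ℝ => (1 + Real.log R) ^ 2 / R) atTop (𝓝 0) := by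
  have h2 : Tendsto (fun R : ℝ => Real.log R ^ 2 / R) atTop (𝓝 0) := by
    simpa using Real.tendsto_pow_log_div_mul_add_atTop 1 0 2 one_ne_zero
  have h1 : Tendsto (fun R : ℝ => Real.log R / R) atTop (𝓝 0) := by
    simpa using Real.tendsto_pow_log_div_mul_add_atTop 1 0 1 one_ne_zero
  have h0 : Tendsto (fun R : ℝ => R⁻¹) atTop (𝓝 0) := tendsto_inv_atTop_zero
  have := (h0.add (h1.const_mul 2)).add h2
  simp only [mul_zero, add_zero] at this
  exact this.congr fun R => by ring

/-- **The mean square theorem.** -/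
theorem mean_square {ε : ℝ} (hε : 0 < ε) :
    ∃ y₀ : ℕ, ∀ y, y₀ ≤ y → ∀ᶠ N : ℕ in atTop,
      sfAvg (fun n => (LV n - eProd y n) ^ 2) N ≤ ε := by
  classical
  have hα := sfDensity_one_pos
  obtain ⟨y₀, hy₀⟩ := exists_pair_tail (show 0 < ε / 6 by positivity)
  refine ⟨y₀, fun y hy => ?_⟩
  set α := sfDensity 1
  set C := 3 * (8000 ^ 2 + (8 * (4 : ℝ) ^ (y + 1)) ^ 2 + 2 / α * 400) with hC
  have hR : Tendsto (fun N : ℕ => (N : ℝ) ^ (1 / 8 : ℝ)) atTop atTop :=
    (tendsto_rpow_atTop (by norm_num)).comp tendsto_natCast_atTop_atTop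
  have hlim := ((tendsto_log_sq_div.comp hR).const_mul C)
  rw [mul_zero] at hlim
  filter_upwards [hlim.eventually (eventually_le_nhds (show 0 < ε / 2 by positivity)),
    hR.eventually_ge_atTop 4, eventually_card_sfSet_ge, eventually_gt_atTop 0]
    with N hsmall hR4 hcard hN0
  simp only [Function.comp_apply] at hsmall
  set R := (N : ℝ) ^ (1 / 8 : ℝ) with hRdef
  have hN : (0 : ℝ) < N := by exact_mod_cast hN0
  have hR8 : R ^ 8 = N := by
    rw [hRdef, ← Real.rpow_natCast _ 8, ← Real.rpow_mul hN.le]; norm_num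
  have hR0 : 0 < R := by linarith
  set M := ⌊R⌋₊ with hM
  have hMR : (M : ℝ) ≤ R := Nat.floor_le hR0.le
  have hRM : R ≤ 2 * M := by
    have := Nat.lt_floor_add_one R
    rw [← hM] at this
    linarith
  have hM1 : 1 ≤ M := Nat.le_floor (by push_cast; linarith)
  set Z := M ^ 6 with hZdef
  have hZ1 : 1 ≤ Z := Nat.one_le_pow _ _ hM1
  have hZR : (Z : ℝ) ≤ R ^ 6 := by
    rw [hZdef]; push_cast; exact pow_le_pow_left₀ (Nat.cast_nonneg M) hMR 6
  have hRZ : R ^ 6 / 64 ≤ Z := by
    rw [hZdef]; push_cast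
    have := pow_le_pow_left₀ hR0.le hRM 6
    rw [mul_pow] at this
    linarith
  set l := 1 + Real.log R with hl
  have hlR : 0 ≤ Real.log R := Real.log_nonneg (by linarith)
  have hl1 : 1 ≤ l := by linarith
  have hg : l ^ 2 / R = (1 + Real.log R) ^ 2 / R := rfl
  have hR1 : (1 : ℝ) ≤ R := by linarith
  have hcard0 : (0 : ℝ) < (sfSet N).card :=
    lt_of_lt_of_le (by positivity) hcard
  -- the three errors
  have hA : ∀ n ∈ sfSet N, |LV n - ∑ m ∈ Icc 1 Z, jn n m / m| ≤ 8000 * (l / R) := by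
    intro n hn
    obtain ⟨hnI, -, h4⟩ := mem_sfSet.mp hn
    rw [mem_Icc] at hnI
    have : NeZero n := ⟨by omega⟩
    rw [LV_eq]
    refine (abs_LVal_sub_le h4 hZ1).trans ?_
    have hnN : (n : ℝ) ≤ R ^ 8 := by rw [hR8]; exact_mod_cast hnI.2
    have hn1 : (1 : ℝ) ≤ n := by exact_mod_cast hnI.1
    have h1 : Real.sqrt n ≤ R ^ 4 := by
      rw [Real.sqrt_le_iff]; exact ⟨by positivity, hnN.trans (le_of_eq (by ring))⟩
    have h2 : 1 + Real.log (4 * n) ≤ 11 * l := by
      have h3 : Real.log (4 * n) ≤ Real.log (4 * R ^ 8) :=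
        Real.log_le_log (by linarith) (by linarith)
      rw [Real.log_mul (x := 4) (y := R ^ 8) (by norm_num) (by positivity), Real.log_pow] at h3
      have := Real.log_le_sub_one_of_pos (show (0 : ℝ) < 4 by norm_num)
      push_cast at h3
      linarith
    have h0 : 0 ≤ 1 + Real.log (4 * n) :=
      add_nonneg zero_le_one (Real.log_nonneg (by linarith))
    calc 2 * (2 * Real.sqrt n * (1 + Real.log (4 * n))) / (Z : ℝ)
        ≤ 2 * (2 * R ^ 4 * (11 * l)) / (R ^ 6 / 64) := by gcongr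
      _ = 2816 * (l / R) * (1 / R) := by field_simp; ring
      _ ≤ 8000 * (l / R) * 1 := by
          gcongr
          · norm_num
          · rw [div_le_one hR0]; exact hR1
      _ = _ := mul_one _
  have hB : ∀ n, |∑ m ∈ Icc 1 Z, (if SmoothUp y m then jn n m / m else 0) - eProd y n| ≤
      8 * 4 ^ (y + 1) * (l / R) := by
    intro n
    refine (abs_smooth_tail_le y n hZ1).trans ?_
    have hs : R ^ 3 / 8 ≤ Real.sqrt Z := by
      refine Real.le_sqrt_of_sq_le (le_trans (le_of_eq ?_) hRZ)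
      ring
    calc (4 : ℝ) ^ (y + 1) / Real.sqrt Z ≤ 4 ^ (y + 1) / (R ^ 3 / 8) := by gcongr
      _ = 8 * 4 ^ (y + 1) * (1 / R ^ 3) := by field_simp
      _ ≤ 8 * 4 ^ (y + 1) * (l / R) := by
          gcongr
          exact le_self_pow₀ hR1 (by norm_num)
  have hmid := sum_sq_mid_le y (Z := Z) hM1 N
  have hpt : sfAvg (fun n => (∑ m ∈ Icc 1 Z, if SmoothUp y m then 0 else jn n m / m) ^ 2) N ≤
      ε / 6 + 2 / α * (400 * (l ^ 2 / R)) := by
    rw [sfAvg, div_le_iff₀ hcard0]
    refine hmid.trans ?_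
    have hlogZ : 1 + Real.log (Z : ℝ) ≤ 6 * l := by
      have h1 : Real.log (Z : ℝ) ≤ Real.log (R ^ 6) :=
        Real.log_le_log (by exact_mod_cast hZ1) hZR
      rw [Real.log_pow] at h1
      push_cast at h1
      linarith
    have hlogZ2 : 1 + Real.log ((Z : ℝ) * Z) ≤ 12 * l := by
      have hZ0 : (Z : ℝ) ≠ 0 := by exact_mod_cast (by omega : Z ≠ 0)
      rw [Real.log_mul hZ0 hZ0]
      linarith
    have h0 : 0 ≤ 1 + Real.log (Z : ℝ) := add_nonneg zero_le_one (Real.log_natCast_nonneg Z)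
    have h00 : 0 ≤ 1 + Real.log ((Z : ℝ) * Z) := by
      rw [← Nat.cast_mul]; exact add_nonneg zero_le_one (Real.log_natCast_nonneg _)
    have t1 : (M : ℝ) * ((1 + Real.log ((Z : ℝ) * Z)) * (2 * Real.sqrt Z) ^ 2) ≤
        48 * (l ^ 2 / R) * N := by
      rw [mul_pow, Real.sq_sqrt (Nat.cast_nonneg Z)]
      calc _ ≤ R * ((12 * l) * (2 ^ 2 * R ^ 6)) := by gcongr
        _ = 48 * (l / R) * R ^ 8 := by field_simp; ring
        _ ≤ _ := by
            rw [hR8]
            gcongr
            exact le_self_pow₀ hl1 two_ne_zero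
    have t2 : (N : ℝ) / M * (1 + Real.log Z) ^ 2 ≤ 72 * (l ^ 2 / R) * N := by
      have hM0 : (0 : ℝ) < M := by exact_mod_cast hM1
      calc _ ≤ (N : ℝ) / (R / 2) * (6 * l) ^ 2 := by gcongr; linarith
        _ = 72 * (l ^ 2 / R) * N := by field_simp; ring
    have t3 : 400 * (l ^ 2 / R) * N ≤ 2 / α * (400 * (l ^ 2 / R)) * (sfSet N).card := by
      have h : 0 ≤ 400 * (l ^ 2 / R) := by positivity
      calc 400 * (l ^ 2 / R) * N = 2 / α * (400 * (l ^ 2 / R)) * (α / 2 * N) := by field_simp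
        _ ≤ _ := by gcongr
    have t4 := mul_le_mul_of_nonneg_left (hy₀ y hy Z) hcard0.le
    have t5 : 0 ≤ (l ^ 2 / R) * N := by positivity
    linarith
  have hpoint : ∀ n ∈ sfSet N, (LV n - eProd y n) ^ 2 ≤
      3 * ((8000 ^ 2 + (8 * (4 : ℝ) ^ (y + 1)) ^ 2) * (l ^ 2 / R)) +
        3 * (∑ m ∈ Icc 1 Z, if SmoothUp y m then 0 else jn n m / m) ^ 2 := by
    intro n hn
    set a := LV n - ∑ m ∈ Icc 1 Z, jn n m / m
    set b := ∑ m ∈ Icc 1 Z, if SmoothUp y m then 0 else jn n m / m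
    set c := ∑ m ∈ Icc 1 Z, (if SmoothUp y m then jn n m / m else 0) - eProd y n
    have e : LV n - eProd y n = a + b + c := by
      have : ∑ m ∈ Icc 1 Z, jn n m / m =
          b + ∑ m ∈ Icc 1 Z, (if SmoothUp y m then jn n m / m else 0) := by
        rw [← Finset.sum_add_distrib]
        exact Finset.sum_congr rfl fun m _ => by split_ifs <;> simp
      simp only [a, c]
      linarith
    have hq : (l / R) ^ 2 ≤ l ^ 2 / R := by
      rw [div_pow]
      gcongr
      exact le_self_pow₀ hR1 two_ne_zero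
    have ha : a ^ 2 ≤ 8000 ^ 2 * (l ^ 2 / R) := by
      rw [← sq_abs]
      refine (pow_le_pow_left₀ (abs_nonneg _) (hA n hn) 2).trans ?_
      rw [mul_pow]
      gcongr
    have hc : c ^ 2 ≤ (8 * (4 : ℝ) ^ (y + 1)) ^ 2 * (l ^ 2 / R) := by
      rw [← sq_abs]
      refine (pow_le_pow_left₀ (abs_nonneg _) (hB n) 2).trans ?_
      rw [mul_pow]
      gcongr
    rw [e]
    nlinarith [sq_nonneg (a - b), sq_nonneg (b - c), sq_nonneg (a - c)]
  calc sfAvg (fun n => (LV n - eProd y n) ^ 2) N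
      ≤ sfAvg (fun n => 3 * ((8000 ^ 2 + (8 * (4 : ℝ) ^ (y + 1)) ^ 2) * (l ^ 2 / R)) +
          3 * (∑ m ∈ Icc 1 Z, if SmoothUp y m then 0 else jn n m / m) ^ 2) N := sfAvg_mono hpoint
    _ ≤ 3 * ((8000 ^ 2 + (8 * (4 : ℝ) ^ (y + 1)) ^ 2) * (l ^ 2 / R)) +
          3 * (ε / 6 + 2 / α * (400 * (l ^ 2 / R))) := by
        rw [sfAvg_add, sfAvg_const _ (by omega), sfAvg_const_mul]
        gcongr
    _ = ε / 2 + C * (l ^ 2 / R) := by rw [hC]; ring
    _ ≤ ε := by linarith [hg]

end FA.LValueDistribution
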