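import Fermat.Agent.LValueDistribution.Counting
import Fermat.Agent.ClassNumberExtremes.Average

/-!
# Orthogonality of the symbols `(-n / m)` over squarefree `n ≡ 1 (mod 4)`

For odd `m` no square the sum over `n ≤ N` is at most `D √m (1 + log m) + N / D` for every `D ≥ 1`,
by Pólya-Vinogradov. The mean value is `∏_{p ∣ m} p / (p + 1)` for a square `m` and zero otherwise.
-/

set_option autoImplicit false

noncomputable section

open Finset Filter
open scoped Topology
open FA.ClassNumberExtremes (jn jn_odd jn_mul jn_even abs_jn_le)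
open FA.Twists (symbolChar)

namespace FA.LValueDistribution

/-- The squarefree `n ≤ N`, `n ≡ 1 (mod 4)`. -/
def sfSet (N : ℕ) : Finset ℕ := sfClass 1 1 N

theorem mem_sfSet {N n : ℕ} : n ∈ sfSet N ↔ n ∈ Icc 1 N ∧ Squarefree n ∧ n % 4 = 1 := by
  simp [sfSet, mem_sfClass]

theorem one_mem_sfSet {N : ℕ} (hN : 1 ≤ N) : 1 ∈ sfSet N :=
  mem_sfSet.mpr ⟨mem_Icc.mpr ⟨le_rfl, hN⟩, squarefree_one, rfl⟩

theorem tendsto_card_sfSet :
    Tendsto (fun N : ℕ => ((sfSet N).card : ℝ) / N) atTop (𝓝 (sfDensity 1)) :=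
  tendsto_card_sfClass (Or.inl rfl) odd_one

theorem eventually_card_sfSet_ge :
    ∀ᶠ N : ℕ in atTop, sfDensity 1 / 2 * N ≤ ((sfSet N).card : ℝ) := by
  filter_upwards [tendsto_card_sfSet.eventually_const_lt (by linarith [sfDensity_one_pos] :
    sfDensity 1 / 2 < sfDensity 1), eventually_gt_atTop 0] with N h hN
  rw [lt_div_iff₀ (by exact_mod_cast hN)] at h
  exact h.le

theorem symbolChar_isPrimitive {s : ℕ} [NeZero s] (hodd : Odd s) (hsq : Squarefree s) :
    (symbolChar s).IsPrimitive := by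
  rw [DirichletCharacter.isPrimitive_def]
  by_contra hne
  obtain ⟨k, hk⟩ := DirichletCharacter.conductor_dvd_level (symbolChar s)
  have hk1 : k ≠ 1 := fun h => hne (by rw [h, mul_one] at hk; exact hk.symm)
  obtain ⟨p, hp, hpk⟩ := Nat.exists_prime_and_dvd hk1
  have := Fact.mk hp
  have hd : DirichletCharacter.conductor (symbolChar s) ∣ s / p :=
    ⟨k / p, by rw [← Nat.mul_div_assoc _ hpk, ← hk]⟩
  have hps : p ∣ s := hk ▸ Dvd.dvd.mul_left hpk _
  have hdiv : s / p ∣ s := Nat.div_dvd_of_dvd hps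
  have hF := (DirichletCharacter.factorsThrough_conductor (symbolChar s)).mono _ hd hdiv
  obtain ⟨z, hz, hz2⟩ := FA.Twists.exists_symbol_eq_neg_one hodd hsq hps
    (c := 1) (fun h => hp.ne_one (Nat.dvd_one.mp h))
  rw [one_mul] at hz
  have hzd : (z : ZMod (s / p)) = 1 := by
    have h := (ZMod.intCast_zmod_eq_zero_iff_dvd ((z : ℤ) - 1) _).mpr hz
    push_cast at h
    exact sub_eq_zero.mp h
  have hcop : z.Coprime s := by
    by_contra hc
    rw [jacobiSym.eq_zero_iff_not_coprime.mpr (by simpa [Int.gcd_natCast_natCast] using hc)] at hz2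
    norm_num at hz2
  have hker : ZMod.unitOfCoprime z hcop ∈ (ZMod.unitsMap hdiv).ker := by
    refine MonoidHom.mem_ker.mpr (Units.ext ?_)
    rw [ZMod.unitsMap_val, ZMod.coe_unitOfCoprime, ZMod.cast_natCast hdiv, hzd, Units.val_one]
  have h1 := MonoidHom.mem_ker.mp
    ((DirichletCharacter.factorsThrough_iff_ker_unitsMap hdiv).mp hF hker)
  have h2 : symbolChar s (z : ZMod s) = 1 := by
    have := congrArg Units.val h1
    rwa [MulChar.coe_toUnitHom, ZMod.coe_unitOfCoprime, Units.val_one] at this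
  rw [FA.Twists.symbolChar_natCast, hz2] at h2
  norm_num at h2

/-- A symbol modulo a squarefree `s` along the multiples of `t` in a class modulo four. -/
theorem abs_sum_classMultiples_le {s : ℕ} (hodd : Odd s) (hsq : Squarefree s) (hs : 1 < s)
    (t N : ℕ) :
    |∑ n ∈ classMultiples 1 t N, jn n s| ≤ Real.sqrt s * (1 + Real.log s) := by
  have hpos : 0 ≤ Real.sqrt s * (1 + Real.log s) :=
    mul_nonneg (Real.sqrt_nonneg _) (add_nonneg zero_le_one (Real.log_natCast_nonneg s))
  by_cases ht : Odd t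
  swap
  · rw [classMultiples_even (Or.inl rfl) ht, Finset.sum_empty, abs_zero]; exact hpos
  have : NeZero s := ⟨by omega⟩
  set ψ := symbolChar s with hψ
  obtain ⟨u, hu⟩ : ∃ u : ℕ, (4 : ZMod s) * (u : ZMod s) = 1 := by
    obtain ⟨i, rfl⟩ := hodd
    refine ⟨(i + 1) ^ 2, ?_⟩
    have h0 : ((2 * i + 1 : ℕ) : ZMod (2 * i + 1)) = 0 := ZMod.natCast_self _
    push_cast at h0 ⊢
    linear_combination (2 * (i : ZMod (2 * i + 1)) + 3) * h0
  have hPV := FA.Summary.polyaVinogradov hs (symbolChar_isPrimitive hodd hsq)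
    ((u * (t * 1 % 4) : ℕ) : ℤ) ((N / t + 4 - t * 1 % 4) / 4)
  rw [sum_classMultiples ht (Or.inl rfl) N (fun n => jn n s)]
  have e : ((∑ j ∈ range ((N / t + 4 - t * 1 % 4) / 4), jn (t * (t * 1 % 4 + 4 * j)) s : ℝ) : ℂ) =
      ψ (-((t : ZMod s) * 4)) * ∑ j ∈ range ((N / t + 4 - t * 1 % 4) / 4),
        ψ ((((u * (t * 1 % 4) : ℕ) : ℤ) + (j : ℤ) : ℤ) : ZMod s) := by
    rw [Finset.mul_sum, Complex.ofReal_sum]
    refine Finset.sum_congr rfl fun j _ => ?_
    set r := t * 1 % 4
    have h := FA.ClassNumberExtremes.symbolChar_intCast s (-((t * (r + 4 * j) : ℕ) : ℤ))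
    rw [← map_mul, hψ, jn_odd _ hodd, Complex.ofReal_intCast, ← h]
    congr 1
    push_cast
    linear_combination ((t : ZMod s) * (r : ZMod s)) * hu
  rw [← Real.norm_eq_abs, ← Complex.norm_real, e, norm_mul]
  exact (mul_le_of_le_one_left (norm_nonneg _) (ψ.norm_le_one _)).trans hPV

theorem jn_sq_coprime (n : ℕ) {b : ℕ} (hb : Odd b) :
    jn n (b ^ 2) = if n.Coprime b then 1 else 0 := by
  rw [sq, jn_mul, jn_odd n hb]
  split_ifs with hc
  · have hg : Int.gcd (-(n : ℤ)) b = 1 := by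
      rw [Int.gcd_eq_natAbs, Int.natAbs_neg, Int.natAbs_natCast, Int.natAbs_natCast]; exact hc
    have := jacobiSym.sq_one hg
    rw [sq] at this
    exact_mod_cast this
  · rw [(jacobiSym.eq_zero_iff).mpr ⟨hb.pos.ne', by
      rw [Int.gcd_eq_natAbs, Int.natAbs_neg, Int.natAbs_natCast, Int.natAbs_natCast]; exact hc⟩]
    simp

/-- The symbol modulo `m = b² s`. -/
theorem abs_sum_classMultiples_mul_sq_le {m : ℕ} (hodd : Odd m) (hsq : ¬ IsSquare m) (t N : ℕ) :
    |∑ n ∈ classMultiples 1 t N, jn n m| ≤ Real.sqrt m * (1 + Real.log m) := by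
  obtain ⟨s, b, rfl, hs⟩ := Nat.sq_mul_squarefree m
  have hbo : Odd b := (Nat.odd_pow_iff two_ne_zero).mp (Nat.Odd.of_mul_left hodd)
  have hso : Odd s := Nat.Odd.of_mul_right hodd
  have hs1 : 1 < s := by
    have := hso.pos
    rcases eq_or_ne s 1 with rfl | h
    · exact absurd ⟨b, by ring⟩ hsq
    · omega
  have hb0 : b ≠ 0 := hbo.pos.ne'
  have hsum : ∑ n ∈ classMultiples 1 t N, jn n (b ^ 2 * s) = ∑ e ∈ b.divisors,
      (ArithmeticFunction.moebius e : ℝ) *
        ∑ n ∈ classMultiples 1 (Nat.lcm e t) N, jn n s := by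
    simp only [jn_mul, jn_sq_coprime _ hbo, ← sum_coprime_indicator hb0, Finset.sum_mul]
    rw [Finset.sum_comm]
    refine Finset.sum_congr rfl fun e _ => ?_
    rw [Finset.mul_sum]
    simp only [ite_mul, zero_mul]
    rw [← Finset.sum_filter]
    refine Finset.sum_congr ?_ fun n _ => rfl
    ext n
    simp only [classMultiples, mem_filter, Nat.lcm_dvd_iff]
    tauto
  have hpos : 0 ≤ Real.sqrt s * (1 + Real.log s) :=
    mul_nonneg (Real.sqrt_nonneg _) (add_nonneg zero_le_one (Real.log_natCast_nonneg s))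
  calc |∑ n ∈ classMultiples 1 t N, jn n (b ^ 2 * s)|
      ≤ ∑ _e ∈ b.divisors, Real.sqrt s * (1 + Real.log s) := by
        rw [hsum]
        refine (Finset.abs_sum_le_sum_abs _ _).trans (Finset.sum_le_sum fun e _ => ?_)
        rw [abs_mul]
        refine (mul_le_of_le_one_left (abs_nonneg _) ?_).trans
          (abs_sum_classMultiples_le hso hs hs1 _ N)
        exact_mod_cast ArithmeticFunction.abs_moebius_le_one (n := e)
    _ ≤ (b : ℝ) * (Real.sqrt s * (1 + Real.log s)) := by
        rw [Finset.sum_const, nsmul_eq_mul]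
        exact mul_le_mul_of_nonneg_right (by exact_mod_cast Nat.card_divisors_le_self b) hpos
    _ ≤ Real.sqrt ((b ^ 2 * s : ℕ) : ℝ) * (1 + Real.log ((b ^ 2 * s : ℕ) : ℝ)) := by
        rw [← mul_assoc]
        push_cast
        rw [Real.sqrt_mul (sq_nonneg (b : ℝ)), Real.sqrt_sq (Nat.cast_nonneg b)]
        gcongr
        exact le_mul_of_one_le_left (Nat.cast_nonneg s)
          (one_le_pow₀ (by exact_mod_cast hbo.pos))

/-- **The off-diagonal bound.** -/
theorem abs_sum_sfSet_le {m D : ℕ} (hodd : Odd m) (hsq : ¬ IsSquare m) (hD : 1 ≤ D) (N : ℕ) :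
    |∑ n ∈ sfSet N, jn n m| ≤ (D : ℝ) * (Real.sqrt m * (1 + Real.log m)) + (N : ℝ) / D := by
  have hsum : ∑ n ∈ sfSet N, jn n m = ∑ d ∈ Icc 1 N, (ArithmeticFunction.moebius d : ℝ) *
      ∑ n ∈ classMultiples 1 (d ^ 2) N, jn n m := by
    simp only [sfSet, sfClass, classMultiples, Finset.sum_filter, Finset.mul_sum]
    rw [Finset.sum_comm]
    refine Finset.sum_congr rfl fun n hn => ?_
    rw [mem_Icc] at hn
    have h := sum_moebius_sq_dvd (show n ≠ 0 by omega) hn.2
    by_cases h4 : n % 4 = 1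
    · have e1 : (Squarefree n ∧ n % 4 = 1 ∧ n.Coprime 1) ↔ Squarefree n :=
        and_iff_left ⟨h4, Nat.coprime_one_right n⟩
      simp only [e1]
      rw [← boole_mul, ← h, Finset.sum_mul]
      refine Finset.sum_congr rfl fun d _ => ?_
      by_cases hd : d ^ 2 ∣ n <;> simp [hd, h4]
    · rw [if_neg fun h => h4 h.2.1]
      exact (Finset.sum_eq_zero fun d _ => by rw [if_neg fun h => h4 h.1, mul_zero]).symm
  have hB := abs_sum_classMultiples_mul_sq_le hodd hsq
  rw [hsum, ← Finset.sum_filter_add_sum_filter_not (Icc 1 N) (· ≤ D)]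
  refine (abs_add_le _ _).trans (add_le_add ?_ ?_) <;>
    refine (Finset.abs_sum_le_sum_abs _ _).trans ?_
  · calc _ ≤ ∑ _d ∈ (Icc 1 N).filter (· ≤ D), Real.sqrt m * (1 + Real.log m) := by
          refine Finset.sum_le_sum fun d _ => ?_
          rw [abs_mul]
          exact (mul_le_of_le_one_left (abs_nonneg _)
            (by exact_mod_cast ArithmeticFunction.abs_moebius_le_one (n := d))).trans (hB _ N)
      _ ≤ _ := by
          rw [Finset.sum_const, nsmul_eq_mul]
          refine mul_le_mul_of_nonneg_right ?_ ((abs_nonneg _).trans (hB 1 N))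
          refine Nat.cast_le.mpr (le_trans (Finset.card_le_card (t := Icc 1 D) fun d hd => ?_) ?_)
          · simp only [mem_filter, mem_Icc] at hd ⊢; omega
          · simp
  · calc _ ≤ ∑ d ∈ (Icc 1 N).filter (fun d => ¬ d ≤ D), (N : ℝ) * ((d : ℝ) ^ 2)⁻¹ := by
          refine Finset.sum_le_sum fun d _ => ?_
          rw [abs_mul]
          refine (mul_le_of_le_one_left (abs_nonneg _)
            (by exact_mod_cast ArithmeticFunction.abs_moebius_le_one (n := d))).trans ?_
          refine (Finset.abs_sum_le_sum_abs _ _).trans ?_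
          refine (Finset.sum_le_sum fun n _ => abs_jn_le n m).trans ?_
          rw [Finset.sum_const, nsmul_eq_mul, mul_one, ← div_eq_mul_inv]
          refine le_trans (Nat.cast_le.mpr ?_) (Nat.cast_div_le.trans
            (le_of_eq (by push_cast; rfl : ((N : ℝ) / ((d ^ 2 : ℕ) : ℝ)) = N / (d : ℝ) ^ 2)))
          rw [← Nat.Ioc_filter_dvd_card_eq_div N (d ^ 2)]
          refine Finset.card_le_card fun n hn => ?_
          simp only [classMultiples, mem_filter, mem_Icc] at hn
          exact mem_filter.mpr ⟨mem_Ioc.mpr ⟨hn.1.1, hn.1.2⟩, hn.2.2⟩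
      _ ≤ _ := by
          rw [← Finset.mul_sum, div_eq_mul_inv]
          refine mul_le_mul_of_nonneg_left ?_ (Nat.cast_nonneg N)
          rcases le_or_gt D N with h | h
          · refine le_trans (Finset.sum_le_sum_of_subset_of_nonneg (t := Ioc D N) (fun d hd => ?_)
              fun d _ _ => by positivity) ((sum_Ioc_inv_sq_le_sub (by omega) h).trans
                (sub_le_self _ (by positivity)))
            simp only [mem_filter, mem_Icc, mem_Ioc] at hd ⊢; omega
          · rw [Finset.filter_eq_empty_iff.mpr fun d hd => by rw [mem_Icc] at hd; omega,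
              Finset.sum_empty]
            positivity

/-- The mean value of `n ↦ (-n / m)`. -/
def meanSymbol (m : ℕ) : ℝ :=
  if IsSquare m then ∏ p ∈ m.primeFactors, (p : ℝ) / (p + 1) else 0

theorem sfDensity_eq {k : ℕ} (hk : Odd k) :
    sfDensity k = sfDensity 1 * ∏ p ∈ k.primeFactors, (p : ℝ) / (p + 1) := by
  have hgen : ∀ P : Finset ℕ, (∀ p ∈ P, p.Prime ∧ p ≠ 2) →
      Odd (∏ p ∈ P, p) ∧ sfDensity (∏ p ∈ P, p) = sfDensity 1 * ∏ p ∈ P, (p : ℝ) / (p + 1) := by
    intro P
    induction P using Finset.induction_on with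
    | empty => simp
    | @insert p P hp ih =>
      intro h
      obtain ⟨ho, hd⟩ := ih fun q hq => h q (mem_insert_of_mem hq)
      obtain ⟨hpp, hp2⟩ := h p (mem_insert_self p P)
      rw [Finset.prod_insert hp, Finset.prod_insert hp, mul_comm p]
      refine ⟨ho.mul (hpp.odd_of_ne_two hp2), ?_⟩
      rw [sfDensity_mul_prime ho hpp hp2 fun hd' => hp ?_, hd]
      · ring
      · obtain ⟨q, hq, hpq⟩ := (Prime.dvd_finset_prod_iff hpp.prime _).mp hd'
        rwa [(Nat.prime_dvd_prime_iff_eq hpp (h q (mem_insert_of_mem hq)).1).mp hpq]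
  obtain ⟨ho, hd⟩ := hgen k.primeFactors fun p hp => ⟨Nat.prime_of_mem_primeFactors hp,
    fun h => by
      subst h; exact absurd (hk.of_dvd_nat (Nat.dvd_of_mem_primeFactors hp)) (by decide)⟩
  rw [← hd]
  refine tendsto_nhds_unique (tendsto_card_sfClass (Or.inl rfl) hk)
    ((tendsto_card_sfClass (r := 1) (Or.inl rfl) ho).congr fun N => ?_)
  congr 3
  refine Finset.filter_congr fun n _ => and_congr_right fun _ => and_congr_right fun _ => ?_
  refine ⟨fun h => Nat.coprime_of_dvd fun q hq hqn hqk => ?_,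
    fun h => h.coprime_dvd_right (Nat.prod_primeFactors_dvd k)⟩
  have hq' : q ∣ ∏ p ∈ k.primeFactors, p :=
    Finset.dvd_prod_of_mem _ (Nat.mem_primeFactors.mpr ⟨hq, hqk, hk.pos.ne'⟩)
  exact hq.ne_one (Nat.eq_one_of_dvd_coprimes h hqn hq')

/-- **The mean value of a symbol.** -/
theorem tendsto_mean_jn {m : ℕ} (hodd : Odd m) :
    Tendsto (fun N : ℕ => (∑ n ∈ sfSet N, jn n m) / (sfSet N).card) atTop
      (𝓝 (meanSymbol m)) := by
  have hα := sfDensity_one_pos
  suffices h : Tendsto (fun N : ℕ => (∑ n ∈ sfSet N, jn n m) / N) atTop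
      (𝓝 (meanSymbol m * sfDensity 1)) by
    have h2 := h.div tendsto_card_sfSet hα.ne'
    rw [mul_div_assoc, div_self hα.ne', mul_one] at h2
    refine h2.congr' ?_
    filter_upwards [eventually_gt_atTop 0] with N hN
    have : (N : ℝ) ≠ 0 := by exact_mod_cast hN.ne'
    simp only [Pi.div_apply]
    field_simp
  unfold meanSymbol
  by_cases hsq : IsSquare m
  · rw [if_pos hsq]
    obtain ⟨b, rfl⟩ := hsq
    have hb := Nat.Odd.of_mul_left hodd
    have hpf : (b * b).primeFactors = b.primeFactors := by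
      rw [← sq, Nat.primeFactors_pow b two_ne_zero]
    rw [hpf, mul_comm (∏ p ∈ b.primeFactors, (p : ℝ) / (p + 1)), ← sfDensity_eq hb]
    refine (tendsto_card_sfClass (Or.inl rfl) hb).congr fun N => ?_
    congr 1
    rw [← sq]
    simp only [jn_sq_coprime _ hb, Finset.sum_boole]
    congr 2
    ext n
    simp only [sfSet, mem_filter, mem_sfClass, Nat.coprime_one_right_eq_true, and_true]
    tauto
  · rw [if_neg hsq, zero_mul]
    set c := Real.sqrt m * (1 + Real.log m) with hc
    have hlim : Tendsto (fun N : ℕ => (c + 1) * (2 / Real.sqrt N)) atTop (𝓝 0) := by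
      have := (tendsto_const_nhds (x := (2 : ℝ))).div_atTop
        (Real.tendsto_sqrt_atTop.comp tendsto_natCast_atTop_atTop)
      simpa using this.const_mul (c + 1)
    refine squeeze_zero_norm' ?_ hlim
    filter_upwards [eventually_ge_atTop 1] with N hN
    have hN' : (1 : ℝ) ≤ N := by exact_mod_cast hN
    have h := abs_sum_sfSet_le (D := Nat.sqrt N + 1) hodd hsq (by omega) N
    rw [Real.norm_eq_abs, abs_div, Nat.abs_cast, div_le_iff₀ (by linarith)]
    refine h.trans ?_
    have hs1 : ((Nat.sqrt N + 1 : ℕ) : ℝ) ≤ 2 * Real.sqrt N := by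
      have h1 : ((Nat.sqrt N : ℕ) : ℝ) ≤ Real.sqrt N := Real.nat_sqrt_le_real_sqrt
      have h2 : 1 ≤ Real.sqrt N := Real.one_le_sqrt.mpr hN'
      push_cast
      linarith
    have hs2 : Real.sqrt N ≤ ((Nat.sqrt N + 1 : ℕ) : ℝ) := by
      push_cast; exact Real.real_sqrt_le_nat_sqrt_succ
    have hsN : 0 < Real.sqrt N := Real.sqrt_pos.mpr (by linarith)
    have e : (c + 1) * (2 / Real.sqrt N) * N = 2 * (c + 1) * Real.sqrt N := by
      field_simp
      rw [Real.sq_sqrt (by linarith)]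
    have hc0 : 0 ≤ c :=
      mul_nonneg (Real.sqrt_nonneg _) (add_nonneg zero_le_one (Real.log_natCast_nonneg m))
    have h3 : (N : ℝ) / ((Nat.sqrt N + 1 : ℕ) : ℝ) ≤ Real.sqrt N := by
      refine (div_le_div_of_nonneg_left (by linarith) hsN hs2).trans ?_
      rw [Real.div_sqrt]
    rw [e]
    nlinarith

end FA.LValueDistribution
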