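import Fermat.Agent.LValueDistribution.Orthogonality

/-!
# Independence of the symbols at different primes

The mean of a product of functions of `(-n / p)`, `p` in a finite set of odd primes, is the product
of the means for the law `0` with probability `1 / (p + 1)`, `±1` each with `p / (2 (p + 1))`.
-/

set_option autoImplicit false

noncomputable section

open Finset Filter
open scoped Topology
open FA.ClassNumberExtremes (jn jn_odd jn_mul jn_one)

namespace FA.LValueDistribution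

/-- The mean of a complex function over `sfSet N`. -/
def sfMean (f : ℕ → ℂ) (N : ℕ) : ℂ := (∑ n ∈ sfSet N, f n) / ((sfSet N).card : ℂ)

/-- The mean of a real function over `sfSet N`. -/
def sfAvg (f : ℕ → ℝ) (N : ℕ) : ℝ := (∑ n ∈ sfSet N, f n) / ((sfSet N).card : ℝ)

theorem ofReal_sfAvg (f : ℕ → ℝ) (N : ℕ) : (sfAvg f N : ℂ) = sfMean (fun n => (f n : ℂ)) N := by
  simp [sfAvg, sfMean]

theorem sfAvg_mono {f g : ℕ → ℝ} {N : ℕ} (h : ∀ n ∈ sfSet N, f n ≤ g n) :
    sfAvg f N ≤ sfAvg g N :=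
  div_le_div_of_nonneg_right (Finset.sum_le_sum h) (Nat.cast_nonneg _)

theorem sfAvg_add (f g : ℕ → ℝ) (N : ℕ) :
    sfAvg (fun n => f n + g n) N = sfAvg f N + sfAvg g N := by
  simp [sfAvg, Finset.sum_add_distrib, add_div]

theorem sfAvg_sub (f g : ℕ → ℝ) (N : ℕ) :
    sfAvg (fun n => f n - g n) N = sfAvg f N - sfAvg g N := by
  simp [sfAvg, Finset.sum_sub_distrib, sub_div]

theorem sfAvg_const_mul (c : ℝ) (f : ℕ → ℝ) (N : ℕ) :
    sfAvg (fun n => c * f n) N = c * sfAvg f N := by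
  simp [sfAvg, ← Finset.mul_sum, mul_div_assoc]

theorem sfAvg_const (c : ℝ) {N : ℕ} (hN : 1 ≤ N) : sfAvg (fun _ => c) N = c := by
  have h : (0 : ℝ) < (sfSet N).card := by
    exact_mod_cast Finset.card_pos.mpr ⟨1, one_mem_sfSet hN⟩
  rw [sfAvg, Finset.sum_const, nsmul_eq_mul, mul_div_assoc, mul_comm, div_mul_cancel₀ _ h.ne']

theorem norm_sfMean_sub_le (f g : ℕ → ℂ) (N : ℕ) :
    ‖sfMean f N - sfMean g N‖ ≤ sfAvg (fun n => ‖f n - g n‖) N := by
  rw [sfMean, sfMean, ← sub_div, ← Finset.sum_sub_distrib, norm_div, Complex.norm_natCast, sfAvg]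
  exact div_le_div_of_nonneg_right (norm_sum_le _ _) (Nat.cast_nonneg _)

/-- The mean of `h` under the limit law of `(-n / p)`. -/
def primeMean (p : ℕ) (h : ℝ → ℂ) : ℂ :=
  (1 / ((p : ℝ) + 1) : ℝ) * h 0 + ((p : ℝ) / (2 * ((p : ℝ) + 1)) : ℝ) * (h 1 + h (-1))

theorem jn_prime_cases (n p : ℕ) : jn n p = 0 ∨ jn n p = 1 ∨ jn n p = -1 := by
  by_cases h : Odd p
  · rw [jn_odd n h]
    rcases jacobiSym.trichotomy (-(n : ℤ)) p with e | e | e <;> simp [e]
  · exact Or.inl (FA.ClassNumberExtremes.jn_even n h)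

theorem apply_jn_eq (h : ℝ → ℂ) (n p : ℕ) :
    h (jn n p) = h 0 + (h 1 - h (-1)) / 2 * (jn n p : ℂ) +
      ((h 1 + h (-1)) / 2 - h 0) * (jn n (p * p) : ℂ) := by
  rw [jn_mul]
  rcases jn_prime_cases n p with e | e | e <;> simp [e]; all_goals ring

theorem not_isSquare_mul_prime {m p : ℕ} (hm : m ≠ 0) (hp : p.Prime) (hpm : ¬ p ∣ m) :
    ¬ IsSquare (m * p) := by
  rintro ⟨b, hb⟩
  have h1 : p ∣ b := (hp.dvd_mul.mp (hb ▸ dvd_mul_left p m)).elim id id
  obtain ⟨c, rfl⟩ := h1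
  refine hpm ⟨c * c, Nat.eq_of_mul_eq_mul_right hp.pos ?_⟩
  rw [hb]; ring

theorem meanSymbol_mul_sq {m p : ℕ} (hm : m ≠ 0) (hp : p.Prime) (hpm : ¬ p ∣ m) :
    meanSymbol (m * (p * p)) = meanSymbol m * ((p : ℝ) / (p + 1)) := by
  have hiff : IsSquare (m * (p * p)) ↔ IsSquare m := by
    refine ⟨fun ⟨b, hb⟩ => ?_, fun h => h.mul ⟨p, rfl⟩⟩
    have h1 : p ∣ b := (hp.dvd_mul.mp (hb ▸ Dvd.dvd.mul_left (dvd_mul_left p p) m)).elim id id
    obtain ⟨c, rfl⟩ := h1
    exact ⟨c, Nat.eq_of_mul_eq_mul_right (Nat.mul_pos hp.pos hp.pos) (by rw [hb]; ring)⟩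
  unfold meanSymbol
  by_cases h : IsSquare m
  · rw [if_pos h, if_pos (hiff.mpr h), Nat.primeFactors_mul hm (by simp [hp.ne_zero]),
      Nat.primeFactors_mul hp.ne_zero hp.ne_zero, Finset.union_idempotent, hp.primeFactors,
      Finset.union_comm, ← Finset.insert_eq,
      Finset.prod_insert fun h' => hpm (Nat.dvd_of_mem_primeFactors h'), mul_comm]
  · rw [if_neg h, if_neg (mt hiff.mp h), zero_mul]

/-- **Independence of the symbols.** -/
theorem tendsto_mean_prod (P : Finset ℕ) (hP : ∀ p ∈ P, p.Prime ∧ p ≠ 2) (h : ℕ → ℝ → ℂ) :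
    Tendsto (sfMean fun n => ∏ p ∈ P, h p (jn n p)) atTop
      (𝓝 (∏ p ∈ P, primeMean p (h p))) := by
  suffices hgen : ∀ m : ℕ, Odd m → (∀ p ∈ P, ¬ p ∣ m) →
      Tendsto (sfMean fun n => (jn n m : ℂ) * ∏ p ∈ P, h p (jn n p)) atTop
        (𝓝 ((meanSymbol m : ℂ) * ∏ p ∈ P, primeMean p (h p))) by
    have := hgen 1 odd_one fun p hp hd => (hP p hp).1.ne_one (Nat.dvd_one.mp hd)
    simpa [jn_one, meanSymbol] using this
  induction P using Finset.induction_on with
  | empty =>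
    intro m hm _
    simp only [Finset.prod_empty, mul_one]
    refine (((Complex.continuous_ofReal.tendsto _).comp (tendsto_mean_jn hm))).congr fun N => ?_
    simp [sfMean]
  | @insert q P hq ih =>
    intro m hm hdiv
    obtain ⟨hqp, hq2⟩ := hP q (mem_insert_self q P)
    have hqo := hqp.odd_of_ne_two hq2
    have hqm := hdiv q (mem_insert_self q P)
    have hPP : ∀ p ∈ P, p.Prime ∧ p ≠ 2 := fun p hp => hP p (mem_insert_of_mem hp)
    have hnd : ∀ k : ℕ, ∀ p ∈ P, (k = q ∨ k = q * q) → ¬ p ∣ m * k := by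
      intro k p hp hk hd
      rcases (hPP p hp).1.dvd_mul.mp hd with h' | h'
      · exact hdiv p (mem_insert_of_mem hp) h'
      · have h'' : p ∣ q := by
          rcases hk with rfl | rfl
          exacts [h', ((hPP p hp).1.dvd_mul.mp h').elim id id]
        exact hq (((Nat.prime_dvd_prime_iff_eq (hPP p hp).1 hqp).mp h'') ▸ hp)
    set a := (h q 1 - h q (-1)) / 2
    set b := (h q 1 + h q (-1)) / 2 - h q 0
    have h0 := ih hPP m hm fun p hp => hdiv p (mem_insert_of_mem hp)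
    have h1 := ih hPP (m * q) (hm.mul hqo) fun p hp => hnd q p hp (Or.inl rfl)
    have h2 := ih hPP (m * (q * q)) (hm.mul (hqo.mul hqo)) fun p hp =>
      hnd (q * q) p hp (Or.inr rfl)
    rw [show meanSymbol (m * q) = 0 from if_neg (not_isSquare_mul_prime hm.pos.ne' hqp hqm)] at h1
    rw [meanSymbol_mul_sq hm.pos.ne' hqp hqm] at h2
    have hlim := ((h0.const_mul (h q 0)).add (h1.const_mul a)).add (h2.const_mul b)
    have hval : h q 0 * ((meanSymbol m : ℂ) * ∏ p ∈ P, primeMean p (h p)) +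
        a * (((0 : ℝ) : ℂ) * ∏ p ∈ P, primeMean p (h p)) +
        b * (((meanSymbol m * ((q : ℝ) / (q + 1)) : ℝ) : ℂ) * ∏ p ∈ P, primeMean p (h p)) =
        (meanSymbol m : ℂ) * ∏ p ∈ insert q P, primeMean p (h p) := by
      have hq1 : ((q : ℂ) + 1) ≠ 0 := by
        exact_mod_cast (Nat.succ_ne_zero q)
      rw [Finset.prod_insert hq, primeMean]
      simp only [b]
      push_cast
      field_simp
      ring
    rw [← hval]
    refine hlim.congr fun N => ?_
    simp only [sfMean, mul_div, ← add_div, Finset.mul_sum, ← Finset.sum_add_distrib]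
    congr 1
    refine Finset.sum_congr rfl fun n _ => ?_
    rw [Finset.prod_insert hq, apply_jn_eq (h q), jn_mul n m q, jn_mul n m (q * q)]
    push_cast
    ring

/-- The real mean of `h`. -/
def primeAvg (p : ℕ) (h : ℝ → ℝ) : ℝ :=
  1 / ((p : ℝ) + 1) * h 0 + (p : ℝ) / (2 * ((p : ℝ) + 1)) * (h 1 + h (-1))

/-- Independence, real valued functions. -/
theorem tendsto_avg_prod (P : Finset ℕ) (hP : ∀ p ∈ P, p.Prime ∧ p ≠ 2) (h : ℕ → ℝ → ℝ) :
    Tendsto (sfAvg fun n => ∏ p ∈ P, h p (jn n p)) atTop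
      (𝓝 (∏ p ∈ P, primeAvg p (h p))) := by
  have h1 := tendsto_mean_prod P hP fun p x => (h p x : ℂ)
  have e : ∀ p, primeMean p (fun x => (h p x : ℂ)) = (primeAvg p (h p) : ℂ) := fun p => by
    simp [primeMean, primeAvg]
  have e2 : ∀ N, sfMean (fun n => ∏ p ∈ P, ((h p (jn n p) : ℝ) : ℂ)) N =
      ((sfAvg (fun n => ∏ p ∈ P, h p (jn n p)) N : ℝ) : ℂ) := fun N => by
    simp [ofReal_sfAvg]
  simp only [e] at h1
  rw [← Complex.ofReal_prod] at h1
  have h2 := ((Complex.continuous_re.tendsto _).comp h1).congr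
    fun N => by rw [Function.comp_apply, e2 N, Complex.ofReal_re]
  rwa [Complex.ofReal_re] at h2

end FA.LValueDistribution
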