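import Fermat.Agent.LValueDistribution.Continuity
import Mathlib.NumberTheory.SumPrimeReciprocals

/-!
# The limit law charges every interval
-/

set_option autoImplicit false

noncomputable section

open Finset Filter MeasureTheory
open scoped Topology ENNReal
open FA.ClassNumberExtremes (jn oddPrimesUp mem_oddPrimesUp)

namespace FA.LValueDistribution

open scoped Classical in
theorem sfLaw_real (N : ℕ) {s : Set ℝ} (hs : MeasurableSet s) :
    (sfLaw N : Measure ℝ).real s =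
      sfAvg (fun n => if Real.log (LV n) ∈ s then 1 else 0) (N + 1) := by
  rw [sfLaw, ProbabilityMeasure.coe_mk, measureReal_def, Measure.smul_apply,
    Measure.coe_finsetSum, Finset.sum_apply, smul_eq_mul, ENNReal.toReal_mul, ENNReal.toReal_inv,
    ENNReal.toReal_natCast, sfAvg, div_eq_inv_mul]
  congr 1
  rw [ENNReal.toReal_sum fun n _ => measure_ne_top _ _]
  refine Finset.sum_congr rfl fun n _ => ?_
  rw [Measure.dirac_apply' _ hs]
  by_cases h : Real.log (LV n) ∈ s <;> simp [h]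

theorem tendsto_sfLaw_real {s : Set ℝ} (hs : (logLaw : Measure ℝ) (frontier s) = 0) :
    Tendsto (fun N => (sfLaw N : Measure ℝ).real s) atTop (𝓝 ((logLaw : Measure ℝ).real s)) :=
  (ENNReal.tendsto_toReal (measure_ne_top _ _)).comp
    (ProbabilityMeasure.tendsto_measure_of_null_frontier_of_tendsto' tendsto_sfLaw hs)

/-- The steps `a_p` over the primes `y₀ < p ≤ y` reach every `C` with overshoot at most `δ`. -/
theorem exists_partial {a : ℕ → ℝ} {δ C : ℝ} {y₀ : ℕ} (hC : 0 ≤ C) (hδ : 0 ≤ δ)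
    (ha : ∀ p : ℕ, p.Prime → y₀ < p → (2 * (p : ℝ))⁻¹ ≤ a p ∧ a p ≤ δ) :
    ∃ y₁, y₀ ≤ y₁ ∧ |∑ p ∈ (Ioc y₀ y₁).filter Nat.Prime, a p - C| ≤ δ := by
  classical
  set S : ℕ → ℝ := fun y => ∑ p ∈ (Ioc y₀ y).filter Nat.Prime, a p with hS
  have hex : ∃ y, C ≤ S y := by
    by_contra hcon
    push Not at hcon
    refine not_summable_one_div_on_primes ?_
    refine summable_of_sum_range_le (c := 2 * C + ∑ n ∈ range (y₀ + 1),
        Set.indicator {p : ℕ | p.Prime} (fun n => (1 : ℝ) / n) n) (fun n =>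
      Set.indicator_nonneg (fun _ _ => by positivity) _) fun y => ?_
    set g := Set.indicator {p : ℕ | p.Prime} (fun n => (1 : ℝ) / n) with hg
    have hg0 : ∀ n, 0 ≤ g n := fun n => Set.indicator_nonneg (fun _ _ => by positivity) _
    have hle : ∑ n ∈ range y, g n ≤
        ∑ n ∈ range (y₀ + 1), g n + ∑ n ∈ Ioc y₀ y, g n := by
      rw [← Finset.sum_union (Finset.disjoint_left.mpr fun n hn hn' => by
        simp only [mem_range, mem_Ioc] at hn hn'; omega)]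
      exact Finset.sum_le_sum_of_subset_of_nonneg (fun n hn => by
        simp only [mem_range, mem_union, mem_Ioc] at hn ⊢; omega) fun n _ _ => hg0 n
    have h2 : ∑ n ∈ Ioc y₀ y, g n ≤ 2 * S y := by
      rw [hS]
      dsimp only
      rw [Finset.mul_sum, Finset.sum_filter]
      refine Finset.sum_le_sum fun n hn => ?_
      by_cases hp : n.Prime
      · rw [if_pos hp, hg, Set.indicator_of_mem (show n ∈ {p : ℕ | p.Prime} from hp)]
        have h := (ha n hp (mem_Ioc.mp hn).1).1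
        calc (1 : ℝ) / n = 2 * (2 * (n : ℝ))⁻¹ := by ring
          _ ≤ 2 * a n := by linarith
      · rw [if_neg hp, hg, Set.indicator_of_notMem (show n ∉ {p : ℕ | p.Prime} from hp)]
    linarith [hcon y]
  have hy := Nat.find_spec hex
  rcases le_or_gt (Nat.find hex) y₀ with h | h
  · refine ⟨y₀, le_rfl, ?_⟩
    have h0 : S (Nat.find hex) = 0 := by simp [hS, Finset.Ioc_eq_empty_of_le h]
    have h00 : ∑ p ∈ (Ioc y₀ y₀).filter Nat.Prime, a p = 0 := by simp
    rw [h00, abs_le]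
    constructor <;> linarith
  · obtain ⟨y, hy'⟩ : ∃ y, Nat.find hex = y + 1 := ⟨Nat.find hex - 1, by omega⟩
    have hmin := Nat.find_min hex (show y < Nat.find hex by omega)
    push Not at hmin
    refine ⟨y + 1, by omega, ?_⟩
    rw [hy'] at hy
    show |S (y + 1) - C| ≤ δ
    have hstep : S (y + 1) = S y + if (y + 1).Prime then a (y + 1) else 0 := by
      simp only [hS, Finset.sum_filter]
      rw [Finset.sum_Ioc_succ_top (by omega)]
    rw [abs_of_nonneg (by linarith), hstep]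
    split_ifs with hp
    · linarith [(ha _ hp (by omega)).2]
    · linarith

/-- The logarithm of the factor at `p`. -/
def logFactor (p : ℕ) (x : ℝ) : ℝ := -Real.log (1 - x / p)

/-- Patterns of symbols with prescribed logarithm of the Euler product. -/
theorem exists_pattern (c : ℝ) {δ : ℝ} (hδ : 0 < δ) :
    ∃ y₁ : ℕ, ∀ y, y₁ ≤ y → ∃ e : ℕ → ℝ, (∀ p, e p = 0 ∨ e p = 1 ∨ e p = -1) ∧
      |∑ p ∈ oddPrimesUp y, logFactor p (e p) - c| ≤ δ := by
  classical
  set y₀ := max 2 ⌈2 / δ⌉₊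
  have hy0 : (2 : ℝ) / δ ≤ y₀ :=
    (Nat.le_ceil _).trans (Nat.cast_le.mpr (le_max_right _ _))
  have hsmall : ∀ p : ℕ, y₀ < p → 2 / (p : ℝ) ≤ δ ∧ (2 : ℝ) ≤ p := fun p hp => by
    have h2 : (2 : ℝ) ≤ p := by
      exact_mod_cast (le_trans (le_max_left 2 _) hp.le : 2 ≤ p)
    refine ⟨?_, h2⟩
    rw [div_le_comm₀ (by linarith) hδ]
    exact hy0.trans (by exact_mod_cast hp.le)
  set σ : ℝ := if 0 ≤ c then 1 else -1 with hσ
  have hb : ∀ p : ℕ, p.Prime → y₀ < p →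
      (2 * (p : ℝ))⁻¹ ≤ σ * logFactor p σ ∧ σ * logFactor p σ ≤ δ := by
    intro p _ hp
    obtain ⟨h1, h2⟩ := hsmall p hp
    have hu : 0 < (p : ℝ)⁻¹ := by positivity
    have hu2 : (p : ℝ)⁻¹ ≤ 1 / 2 := by
      rw [one_div]; exact inv_anti₀ two_pos h2
    rw [div_eq_mul_inv] at h1
    have e2 : (2 * (p : ℝ))⁻¹ = (p : ℝ)⁻¹ / 2 := by ring
    rw [hσ]
    split_ifs with hc
    · have l1 := Real.log_le_sub_one_of_pos (show 0 < 1 - (p : ℝ)⁻¹ by linarith)
      have l2 := Real.one_sub_inv_le_log_of_pos (show 0 < 1 - (p : ℝ)⁻¹ by linarith)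
      have l3 : (1 - (p : ℝ)⁻¹)⁻¹ ≤ 1 + 2 * (p : ℝ)⁻¹ := by
        rw [inv_eq_one_div, div_le_iff₀ (by linarith)]; nlinarith
      rw [logFactor, one_div, one_mul, e2]
      constructor <;> linarith
    · have l1 := Real.log_le_sub_one_of_pos (show 0 < 1 + (p : ℝ)⁻¹ by linarith)
      have l2 := Real.one_sub_inv_le_log_of_pos (show 0 < 1 + (p : ℝ)⁻¹ by linarith)
      have l3 : (1 + (p : ℝ)⁻¹)⁻¹ ≤ 1 - (p : ℝ)⁻¹ / 2 := by
        rw [inv_eq_one_div, div_le_iff₀ (by linarith)]; nlinarith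
      rw [logFactor, neg_div, one_div, sub_neg_eq_add, neg_one_mul, neg_neg, e2]
      constructor <;> linarith
  obtain ⟨y₁, hy₁, hC⟩ := exists_partial (C := |c|) (abs_nonneg c) hδ.le hb
  refine ⟨y₁, fun y hy => ⟨fun p => if y₀ < p ∧ p ≤ y₁ then σ else 0, fun p => ?_, ?_⟩⟩
  · dsimp only
    rw [hσ]
    split_ifs <;> simp
  · have hσ2 : σ * σ = 1 := by rw [hσ]; split_ifs <;> norm_num
    have hσc : σ * |c| = c := by
      rw [hσ]; split_ifs with h
      · rw [abs_of_nonneg h, one_mul]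
      · rw [abs_of_neg (not_le.mp h)]; ring
    have e : ∑ p ∈ oddPrimesUp y, logFactor p (if y₀ < p ∧ p ≤ y₁ then σ else 0) =
        σ * ∑ p ∈ (Ioc y₀ y₁).filter Nat.Prime, σ * logFactor p σ := by
      rw [Finset.mul_sum, ← Finset.sum_filter_add_sum_filter_not (oddPrimesUp y)
        (fun p => y₀ < p ∧ p ≤ y₁)]
      rw [Finset.sum_eq_zero (s := (oddPrimesUp y).filter fun p => ¬(y₀ < p ∧ p ≤ y₁))
        (fun p hp => by rw [if_neg (mem_filter.mp hp).2, logFactor]; simp), add_zero]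
      refine Finset.sum_congr ?_ fun p hp => ?_
      · ext p
        simp only [mem_filter, mem_oddPrimesUp, mem_Ioc]
        have : 2 ≤ y₀ := le_max_left _ _
        constructor
        · exact fun h => ⟨h.2, h.1.1⟩
        · exact fun h => ⟨⟨h.2, by omega, by omega⟩, h.1⟩
      · rw [mem_filter, mem_Ioc] at hp
        rw [if_pos hp.1, ← mul_assoc, hσ2, one_mul]
    have hσ1 : |σ| = 1 := by rw [hσ]; split_ifs <;> simp
    rw [e]
    calc |σ * ∑ p ∈ (Ioc y₀ y₁).filter Nat.Prime, σ * logFactor p σ - c|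
        = |σ| * |∑ p ∈ (Ioc y₀ y₁).filter Nat.Prime, σ * logFactor p σ - abs c| := by
          rw [← abs_mul, mul_sub, hσc]
      _ ≤ δ := by rw [hσ1, one_mul]; exact hC

/-- The indicator of the pattern `e` up to `y`. -/
def patternInd (y : ℕ) (e : ℕ → ℝ) (n : ℕ) : ℝ :=
  ∏ p ∈ oddPrimesUp y, if jn n p = e p then 1 else 0

theorem patternInd_cases (y : ℕ) (e : ℕ → ℝ) (n : ℕ) :
    patternInd y e n = 0 ∨
      (patternInd y e n = 1 ∧ ∀ p ∈ oddPrimesUp y, jn n p = e p) := by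
  by_cases h : ∀ p ∈ oddPrimesUp y, jn n p = e p
  · exact Or.inr ⟨Finset.prod_eq_one fun p hp => if_pos (h p hp), h⟩
  · push Not at h
    obtain ⟨p, hp, hne⟩ := h
    exact Or.inl (Finset.prod_eq_zero hp (if_neg hne))

theorem primeAvg_pattern_pos {p : ℕ} (hp : p.Prime) {e : ℝ} (he : e = 0 ∨ e = 1 ∨ e = -1) :
    0 < primeAvg p (fun x => if x = e then 1 else 0) := by
  have : (0 : ℝ) < p := by exact_mod_cast hp.pos
  rcases he with rfl | rfl | rfl <;> simp [primeAvg] <;> norm_num <;> positivity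

theorem factor_inv {p : ℕ} (hp : 2 ≤ p) :
    (1 - (1 : ℝ) / p)⁻¹ = (p : ℝ) / (p - 1) ∧ (1 - (-1 : ℝ) / p)⁻¹ = (p : ℝ) / (p + 1) ∧
      (1 - (0 : ℝ) / p)⁻¹ = 1 := by
  have h0 : (p : ℝ) ≠ 0 := by exact_mod_cast (by omega : p ≠ 0)
  refine ⟨?_, ?_, by simp⟩
  · rw [one_sub_div h0, inv_div]
  · rw [one_sub_div h0, inv_div, sub_neg_eq_add]

theorem primeAvg_ratio_one_ge {p : ℕ} (hp : 3 ≤ p) :
    1 ≤ primeAvg p (fun x => (1 - x / p)⁻¹) := by
  have hp' : (3 : ℝ) ≤ p := by exact_mod_cast hp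
  have h1 : (0 : ℝ) < (p : ℝ) - 1 := by linarith
  have e : primeAvg p (fun x => (1 - x / p)⁻¹) - 1 =
      (p : ℝ) / ((p + 1) ^ 2 * (p - 1)) := by
    obtain ⟨f1, f2, f3⟩ := factor_inv (show 2 ≤ p by omega)
    simp only [primeAvg, f1, f2, f3]
    field_simp
    ring
  have : 0 ≤ (p : ℝ) / ((p + 1) ^ 2 * (p - 1)) := by positivity
  linarith

theorem primeAvg_ratio_two_le {p : ℕ} (hp : 3 ≤ p) :
    primeAvg p (fun x => (1 - x / p)⁻¹ ^ 2) ≤ 1 + 6 * ((p : ℝ) ^ 2)⁻¹ := by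
  have hp' : (3 : ℝ) ≤ p := by exact_mod_cast hp
  have h1 : (0 : ℝ) < (p : ℝ) - 1 := by linarith
  have e : primeAvg p (fun x => (1 - x / p)⁻¹ ^ 2) - 1 =
      (p : ℝ) * (3 * (p : ℝ) ^ 2 - 1) / ((p + 1) ^ 3 * (p - 1) ^ 2) := by
    obtain ⟨f1, f2, f3⟩ := factor_inv (show 2 ≤ p by omega)
    simp only [primeAvg, f1, f2, f3]
    field_simp
    ring
  have h2 : (p : ℝ) * (3 * (p : ℝ) ^ 2 - 1) / ((p + 1) ^ 3 * (p - 1) ^ 2) ≤
      6 * ((p : ℝ) ^ 2)⁻¹ := by
    have h9 : (9 : ℝ) ≤ (p : ℝ) ^ 2 := by nlinarith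
    rw [← div_eq_mul_inv, div_le_div_iff₀ (by positivity) (by positivity)]
    calc (p : ℝ) * (3 * (p : ℝ) ^ 2 - 1) * (p : ℝ) ^ 2
        ≤ ((p : ℝ) + 1) * (3 * (p : ℝ) ^ 2) * (p : ℝ) ^ 2 := by gcongr <;> nlinarith
      _ = 3 * ((p : ℝ) + 1) * ((p : ℝ) ^ 2) ^ 2 := by ring
      _ ≤ 6 * ((p : ℝ) + 1) * ((p : ℝ) ^ 2 - 1) ^ 2 := by
          nlinarith [sq_nonneg ((p : ℝ) ^ 2 - 4)]
      _ = _ := by ring
  linarith

/-- The second moment of the Euler factors of the primes in `(y, Y]`. -/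
theorem tendsto_avg_block {y Y : ℕ} (hy : 2 ≤ y) (hyY : y ≤ Y) {e : ℕ → ℝ}
    (he : ∀ p, e p = 0 ∨ e p = 1 ∨ e p = -1) :
    ∃ L : ℝ, L ≤ (∏ p ∈ oddPrimesUp y, primeAvg p (fun x => if x = e p then 1 else 0)) *
        (Real.exp (6 / y) - 1) ∧
      Tendsto (sfAvg fun n => patternInd y e n * (eProd Y n / eProd y n - 1) ^ 2) atTop (𝓝 L) := by
  classical
  set P := oddPrimesUp y
  set Q := oddPrimesUp Y \ P
  have hsub : P ⊆ oddPrimesUp Y := fun p hp => by
    obtain ⟨h1, h2, h3⟩ := mem_oddPrimesUp.mp hp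
    exact mem_oddPrimesUp.mpr ⟨h1, h2, h3.trans hyY⟩
  have hsplit : ∀ f : ℕ → ℝ, ∏ p ∈ oddPrimesUp Y, f p = (∏ p ∈ P, f p) * ∏ p ∈ Q, f p := fun f => by
    rw [mul_comm, Finset.prod_sdiff hsub]
  set w := ∏ p ∈ P, primeAvg p (fun x => if x = e p then 1 else 0) with hw
  have hw0 : 0 ≤ w := Finset.prod_nonneg fun p hp =>
    (primeAvg_pattern_pos (mem_oddPrimesUp.mp hp).1 (he p)).le
  have hmom : ∀ k : ℕ, Tendsto (sfAvg fun n => patternInd y e n * (eProd Y n / eProd y n) ^ k)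
      atTop (𝓝 (w * ∏ p ∈ Q, primeAvg p (fun x => (1 - x / p)⁻¹ ^ k))) := by
    intro k
    have h := tendsto_avg_prod (oddPrimesUp Y) oddPrimes_spec fun p x =>
      if p ∈ P then (if x = e p then 1 else 0) else (1 - x / p)⁻¹ ^ k
    rw [hsplit] at h
    have h1 : ∏ p ∈ P, primeAvg p (fun x =>
        if p ∈ P then (if x = e p then 1 else 0) else (1 - x / p)⁻¹ ^ k) = w :=
      Finset.prod_congr rfl fun p hp => by simp only [if_pos hp]
    have h2 : ∏ p ∈ Q, primeAvg p (fun x =>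
        if p ∈ P then (if x = e p then 1 else 0) else (1 - x / p)⁻¹ ^ k) =
        ∏ p ∈ Q, primeAvg p (fun x => (1 - x / p)⁻¹ ^ k) :=
      Finset.prod_congr rfl fun p hp => by simp only [if_neg (mem_sdiff.mp hp).2]
    rw [h1, h2] at h
    refine h.congr fun N => ?_
    congr 1
    funext n
    rw [hsplit]
    congr 1
    · exact Finset.prod_congr rfl fun p hp => if_pos hp
    · rw [show eProd Y n / eProd y n = ∏ p ∈ Q, (1 - jn n p / p)⁻¹ by
        rw [eProd, hsplit, eProd, mul_div_cancel_left₀]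
        exact (eProd_pos y n).ne', ← Finset.prod_pow]
      exact Finset.prod_congr rfl fun p hp => if_neg (mem_sdiff.mp hp).2
  have hQ : ∀ p ∈ Q, p.Prime ∧ y < p := fun p hp => by
    obtain ⟨h1, h2⟩ := mem_sdiff.mp hp
    obtain ⟨h3, h4, h5⟩ := mem_oddPrimesUp.mp h1
    exact ⟨h3, lt_of_not_ge fun h => h2 (mem_oddPrimesUp.mpr ⟨h3, h4, h⟩)⟩
  refine ⟨w * ∏ p ∈ Q, primeAvg p (fun x => (1 - x / p)⁻¹ ^ 2) -
    2 * (w * ∏ p ∈ Q, primeAvg p (fun x => (1 - x / p)⁻¹ ^ 1)) +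
    w * ∏ p ∈ Q, primeAvg p (fun x => (1 - x / p)⁻¹ ^ 0), ?_, ?_⟩
  · have h1 : 1 ≤ ∏ p ∈ Q, primeAvg p (fun x => (1 - x / p)⁻¹ ^ 1) := by
      simp only [pow_one]
      exact Finset.one_le_prod fun p hp => primeAvg_ratio_one_ge (by have := (hQ p hp).2; omega)
    have h0 : ∏ p ∈ Q, primeAvg p (fun x => (1 - x / p)⁻¹ ^ 0) = 1 := by
      refine Finset.prod_eq_one fun p _ => ?_
      simp only [primeAvg, pow_zero]
      field_simp
      ring
    have h2 : ∏ p ∈ Q, primeAvg p (fun x => (1 - x / p)⁻¹ ^ 2) ≤ Real.exp (6 / y) := by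
      calc _ ≤ ∏ p ∈ Q, Real.exp (6 * ((p : ℝ) ^ 2)⁻¹) := by
            refine Finset.prod_le_prod (fun p hp => ?_) fun p hp =>
              (primeAvg_ratio_two_le (by have := (hQ p hp).2; omega)).trans ?_
            · simp only [primeAvg]; positivity
            · linarith [Real.add_one_le_exp (6 * ((p : ℝ) ^ 2)⁻¹)]
        _ = Real.exp (6 * ∑ p ∈ Q, ((p : ℝ) ^ 2)⁻¹) := by rw [Finset.mul_sum, Real.exp_sum]
        _ ≤ Real.exp (6 / y) := by
            rw [Real.exp_le_exp, div_eq_mul_inv]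
            refine mul_le_mul_of_nonneg_left ?_ (by norm_num)
            refine (Finset.sum_le_sum_of_subset_of_nonneg (t := Ioc y Y) (fun p hp => ?_)
              fun p _ _ => by positivity).trans
              ((sum_Ioc_inv_sq_le_sub (by omega) hyY).trans (sub_le_self _ (by positivity)))
            obtain ⟨h1, -⟩ := mem_sdiff.mp hp
            exact mem_Ioc.mpr ⟨(hQ p hp).2, (mem_oddPrimesUp.mp h1).2.2⟩
    rw [h0]
    nlinarith [mul_le_mul_of_nonneg_left h2 hw0, mul_le_mul_of_nonneg_left h1 hw0]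
  · refine (((hmom 2).sub ((hmom 1).const_mul 2)).add (hmom 0)).congr fun N => ?_
    rw [← sfAvg_const_mul, ← sfAvg_sub, ← sfAvg_add]
    congr 1
    funext n
    ring

theorem abs_log_le_of_abs_sub_one_le {r κ : ℝ} (hκ : κ ≤ 1 / 2) (h : |r - 1| ≤ κ) :
    |Real.log r| ≤ 2 * κ := by
  obtain ⟨h1, h2⟩ := abs_le.mp h
  have hκ0 : 0 ≤ κ := (abs_nonneg _).trans h
  have hr : 0 < r := by linarith
  have l1 := Real.log_le_sub_one_of_pos hr
  have l2 := Real.one_sub_inv_le_log_of_pos hr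
  have l3 : r⁻¹ ≤ 1 + 2 * κ := by
    rw [inv_eq_one_div, div_le_iff₀ hr]; nlinarith
  exact abs_le.mpr ⟨by linarith, by linarith⟩

open scoped Classical in
theorem indicator_ge {c δ η κ : ℝ} (hη : 0 < η) (hκ : 0 < κ) (hκ2 : κ ≤ 1 / 2) (hκδ : 2 * κ ≤ δ)
    {y Y : ℕ} {e : ℕ → ℝ} (hsum : |∑ p ∈ oddPrimesUp y, logFactor p (e p) - c| ≤ δ) (n : ℕ) :
    patternInd y e n - (κ ^ 2)⁻¹ * (patternInd y e n * (eProd Y n / eProd y n - 1) ^ 2) -
      (2 * η * (eProd Y n)⁻¹ + ((2 * η * κ) ^ 2)⁻¹ * (LV n - eProd Y n) ^ 2) ≤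
      if Real.log (LV n) ∈ Set.Icc (c - 3 * δ) (c + 3 * δ) then 1 else 0 := by
  have he := eProd_pos Y n
  have hey := eProd_pos y n
  have hR0 : (0 : ℝ) ≤ if Real.log (LV n) ∈ Set.Icc (c - 3 * δ) (c + 3 * δ) then 1 else 0 := by
    split_ifs <;> norm_num
  have ta : 0 ≤ 2 * η * (eProd Y n)⁻¹ := by positivity
  have tb : 0 ≤ ((2 * η * κ) ^ 2)⁻¹ * (LV n - eProd Y n) ^ 2 := by positivity
  rcases patternInd_cases y e n with h0 | ⟨h1, hpat⟩
  · rw [h0]; linarith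
  rw [h1, one_mul]
  have tc : 0 ≤ (κ ^ 2)⁻¹ * (eProd Y n / eProd y n - 1) ^ 2 := by positivity
  by_cases hr : κ < |eProd Y n / eProd y n - 1|
  · have : 1 ≤ (κ ^ 2)⁻¹ * (eProd Y n / eProd y n - 1) ^ 2 := by
      rw [← div_eq_inv_mul, one_le_div₀ (by positivity), ← sq_abs (_ - 1)]
      exact pow_le_pow_left₀ hκ.le hr.le 2
    linarith
  by_cases hs : eProd Y n < 2 * η
  · have : 1 ≤ 2 * η * (eProd Y n)⁻¹ := by
      rw [← div_eq_mul_inv, one_le_div₀ he]; exact hs.le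
    linarith
  by_cases hd : 2 * η * κ < |LV n - eProd Y n|
  · have : 1 ≤ ((2 * η * κ) ^ 2)⁻¹ * (LV n - eProd Y n) ^ 2 := by
      rw [← div_eq_inv_mul, one_le_div₀ (by positivity), ← sq_abs (_ - _)]
      exact pow_le_pow_left₀ (by positivity) hd.le 2
    linarith
  push Not at hr hs hd
  rw [if_pos]
  · linarith
  have hA : |Real.log (LV n) - Real.log (eProd Y n)| ≤ 2 * κ := by
    rw [← Real.log_div (LV_pos n).ne' he.ne']
    refine abs_log_le_of_abs_sub_one_le hκ2 ?_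
    rw [div_sub_one he.ne', abs_div, abs_of_pos he, div_le_iff₀ he]
    nlinarith
  have hB : |Real.log (eProd Y n) - Real.log (eProd y n)| ≤ 2 * κ := by
    rw [← Real.log_div he.ne' hey.ne']
    exact abs_log_le_of_abs_sub_one_le hκ2 hr
  have hC : Real.log (eProd y n) = ∑ p ∈ oddPrimesUp y, logFactor p (e p) := by
    rw [eProd, Real.log_prod fun p hp =>
      (inv_pos.mpr (factor_pos (mem_oddPrimesUp.mp hp).1)).ne']
    exact Finset.sum_congr rfl fun p hp => by rw [Real.log_inv, hpat p hp, logFactor]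
  rw [← hC] at hsum
  obtain ⟨a1, a2⟩ := abs_le.mp hA
  obtain ⟨b1, b2⟩ := abs_le.mp hB
  obtain ⟨c1, c2⟩ := abs_le.mp hsum
  exact ⟨by linarith, by linarith⟩

/-- **Every interval has positive mass.** -/
theorem logLaw_Icc_pos (c : ℝ) {δ : ℝ} (hδ : 0 < δ) :
    0 < (logLaw : Measure ℝ).real (Set.Icc (c - 3 * δ) (c + 3 * δ)) := by
  classical
  set κ := min (1 / 2) (δ / 2) with hκdef
  have hκ : 0 < κ := lt_min (by norm_num) (by linarith)
  have hκδ : 2 * κ ≤ δ := by linarith [min_le_right (1 / 2) (δ / 2)]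
  obtain ⟨y₁, hy₁⟩ := exists_pattern c hδ
  have hexp : Tendsto (fun y : ℕ => (κ ^ 2)⁻¹ * (Real.exp (6 / (y : ℝ)) - 1)) atTop (𝓝 0) := by
    have h := ((Real.continuous_exp.tendsto 0).comp
      (tendsto_const_div_atTop_nhds_zero_nat (6 : ℝ))).sub_const 1
    simpa [Function.comp_def] using h.const_mul (κ ^ 2)⁻¹
  obtain ⟨y, hy, hy2, hyexp⟩ := ((eventually_ge_atTop y₁).and ((eventually_ge_atTop 2).and
    (hexp.eventually (eventually_le_nhds (show (0 : ℝ) < 1 / 4 by norm_num))))).exists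
  obtain ⟨e, he, hsum⟩ := hy₁ y hy
  set w := ∏ p ∈ oddPrimesUp y, primeAvg p (fun x => if x = e p then 1 else 0) with hw
  have hw0 : 0 < w := Finset.prod_pos fun p hp =>
    primeAvg_pattern_pos (mem_oddPrimesUp.mp hp).1 (he p)
  set η := w / 32 with hη
  have hη0 : 0 < η := by positivity
  have hC0 : 0 < ((2 * η * κ) ^ 2)⁻¹ := by positivity
  obtain ⟨Y₀, hY₀⟩ := mean_square (show 0 < w / 8 / ((2 * η * κ) ^ 2)⁻¹ by positivity)
  set Y := max Y₀ y
  obtain ⟨L, hL, hblock⟩ := tendsto_avg_block hy2 (le_max_right Y₀ y) he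
  have hpat : Tendsto (sfAvg fun n => patternInd y e n) atTop (𝓝 w) :=
    tendsto_avg_prod _ oddPrimes_spec fun p x => if x = e p then 1 else 0
  have hL4 : (κ ^ 2)⁻¹ * L ≤ w / 4 := by
    have := mul_le_mul_of_nonneg_left hL (show 0 ≤ (κ ^ 2)⁻¹ by positivity)
    nlinarith
  have hev : ∀ᶠ N : ℕ in atTop, w / 8 ≤ sfAvg (fun n =>
      if Real.log (LV n) ∈ Set.Icc (c - 3 * δ) (c + 3 * δ) then 1 else 0) N := by
    filter_upwards [hpat.eventually (eventually_ge_nhds (show 7 / 8 * w < w by linarith)),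
      (hblock.const_mul (κ ^ 2)⁻¹).eventually (eventually_le_nhds
        (show (κ ^ 2)⁻¹ * L < w / 4 + w / 8 by linarith)),
      (tendsto_avg_inv_eProd Y).eventually (eventually_le_nhds one_lt_two),
      hY₀ Y (le_max_left _ _)] with N h1 h2 h3 h4
    refine le_trans ?_ (sfAvg_mono fun n _ =>
      indicator_ge (Y := Y) hη0 hκ (min_le_left _ _) hκδ hsum n)
    rw [sfAvg_sub, sfAvg_sub, sfAvg_add, sfAvg_const_mul, sfAvg_const_mul, sfAvg_const_mul]
    have h4' : ((2 * η * κ) ^ 2)⁻¹ * sfAvg (fun n => (LV n - eProd Y n) ^ 2) N ≤ w / 8 := by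
      refine (mul_le_mul_of_nonneg_left h4 hC0.le).trans_eq ?_
      field_simp
    have h3' : 2 * η * sfAvg (fun n => (eProd Y n)⁻¹) N ≤ w / 8 := by
      refine (mul_le_mul_of_nonneg_left h3 (by positivity)).trans_eq ?_
      rw [hη]; ring
    linarith
  have hfront : (logLaw : Measure ℝ) (frontier (Set.Icc (c - 3 * δ) (c + 3 * δ))) = 0 := by
    rw [frontier_Icc (by linarith)]
    rw [Set.insert_eq]
    exact measure_union_null (logLaw_singleton _) (logLaw_singleton _)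
  refine lt_of_lt_of_le (by positivity : 0 < w / 8) (ge_of_tendsto (tendsto_sfLaw_real hfront) ?_)
  filter_upwards [(tendsto_add_atTop_nat 1).eventually hev] with N hN
  rw [sfLaw_real N measurableSet_Icc]
  exact hN.trans (sfAvg_mono fun n _ => le_of_eq (by split_ifs <;> rfl))

end FA.LValueDistribution
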